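import Fermat.Agent.SS.Abs.Main
import Fermat.Agent.ND.LLDim

/-!
# Project NP : (NEW-p) by a two-chart ("Cech") leading term calculus.  Definitions

`T : TwoRed K F k Fb`, `𝒩 : NodalData T` as in `SS/Abs`, `char k = p`.  NO reduction of places is used: only
the two charts `P`, `P'` of `𝒩`, i.e. the three families of lattices

  `B₁ = ⋃ L(a P) ∩ O`,   `B₂ = ⋃ L(b P') ∩ O`,   `B₁₂ = ⋃ L(a P + b P') ∩ O`

and their reductions `M 1 a 0`, `M 1 0 b`, `M 1 a b`.   `H¹(Z, O) = B̄₁₂ / (B̄₁ + B̄₂)`.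

* `Triv 𝒩 w` : `w ∈ B̄₁ + B̄₂` (the class of `w` in `H¹(Z, O)` vanishes).
* `Cech 𝒩 D c w` : there are sections `u₁` of `O(D)` on the first chart and `u₂` on the second chart, both
  with reduction `(1, 1)`, with `u₁ - u₂ = c n`, `n ∈ O`, `red n = w`  ("the class of `D` is `≡ 1 mod c`, with
  leading term `w`").
* `NLHyp T p f` : the only way in which "`p`-new" enters.

See the board, topic S33, blueprint NP.
-/

set_option autoImplicit false
set_option linter.unusedSectionVars false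

open AlgebraicCurve

namespace Fermat.Agent.NP

open Fermat.Agent.RED Fermat.Agent.S24 Fermat.Agent.SS

variable {K F k Fb : Type*} [Field K] [Field F] [Algebra K F] [Field k] [Field Fb] [Algebra k Fb]
variable {T : TwoRed K F k Fb}

/-- the constant `c ∈ A` as an element of `O` -/
def cst (T : TwoRed K F k Fb) (c : K) (hc : c ∈ T.A) : T.O := ⟨algebraMap K F c, T.algebraMap_mem_O hc⟩

/-- `κ` is the residue class of `c ∈ A` -/
def IsRes (T : TwoRed K F k Fb) (c : K) (κ : k) : Prop :=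
  ∃ hc : c ∈ T.A, T.red (cst T c hc) = (algebraMap k Fb κ, algebraMap k Fb κ)

/-- `w ∈ B̄₁ + B̄₂` -/
def Triv (𝒩 : NodalData T) (w : Fb × Fb) : Prop :=
  ∃ (a b : ℕ) (w₁ w₂ : Fb × Fb), w₁ ∈ 𝒩.M 1 a 0 ∧ w₂ ∈ 𝒩.M 1 0 b ∧ w = w₁ + w₂

/-- a Cech datum for `O(D)`, at the scale `c`, with leading term `w` -/
def Cech (𝒩 : NodalData T) (D : Divisor K F) (c : K) (w : Fb × Fb) : Prop :=
  ∃ (a b : ℕ) (u₁ u₂ n : T.O), (u₁ : F) ∈ riemannRochSpace (D + 𝒩.X a 0) ∧
    (u₂ : F) ∈ riemannRochSpace (D + 𝒩.X 0 b) ∧ T.red u₁ = 1 ∧ T.red u₂ = 1 ∧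
    (u₁ : F) - (u₂ : F) = algebraMap K F c * (n : F) ∧ T.red n = w

/-- the "norm lemma" hypothesis on `f` (true if the norms of `f` to the two copies of the curve of lower
level are `p`-th powers) : if `f u ^ p = δ + e z` with `|e| > |λ| ^ p` then the two components of `red z` are
`p`-th powers. -/
def NLHyp (T : TwoRed K F k Fb) (p : ℕ) (f : F) : Prop :=
  ∀ (u : F) (δ e : K) (z : T.O), u ≠ 0 → T.A.valuation δ = 1 → T.A.valuation e < 1 →
    T.A.valuation (p : K) ^ p < T.A.valuation e ^ (p - 1) →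
    f * u ^ p = algebraMap K F δ + algebraMap K F e * (z : F) →
    (∃ v : Fb, (T.red z).1 = v ^ p) ∧ (∃ v : Fb, (T.red z).2 = v ^ p)

end Fermat.Agent.NP
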