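import Fermat.Agent.NP.Defs

/-!
# NP : basic API   (WP **NP-BASIC**)

Everything here is routine (each lemma ≤ 15 lines).  Useful: `TwoRed.exists_red_const`, `TwoRed.red_const_eq_zero`,
`TwoRed.red_const_mul`, `ValuationSubring.valuation_le_one_iff`, `ValuationSubring.valuation_lt_one_iff`,
`NodalData.pole`, `NodalData.glue`, `NodalData.M_mono`, `NodalData.Msub` (the set `M ζ a b` as a submodule),
`NodalData.exists_zeta`, `NodalData.exists_isLarge`, `NodalData.one_mem_M`.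
-/

set_option autoImplicit false
set_option linter.unusedSectionVars false

open AlgebraicCurve

namespace Fermat.Agent.NP

open Fermat.Agent.RED Fermat.Agent.S24 Fermat.Agent.SS

variable {K F k Fb : Type*} [Field K] [Field F] [Algebra K F] [Field k] [Field Fb] [Algebra k Fb]
variable {T : TwoRed K F k Fb}

/-! ### constants -/

@[simp] theorem coe_cst (c : K) (hc : c ∈ T.A) : ((cst T c hc : T.O) : F) = algebraMap K F c := rfl

theorem mem_A_iff {c : K} : c ∈ T.A ↔ T.A.valuation c ≤ 1 :=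
  (ValuationSubring.valuation_le_one_iff T.A c).symm

theorem exists_isRes {c : K} (hc : c ∈ T.A) : ∃ κ : k, IsRes T c κ := by
  obtain ⟨a, ha⟩ := T.exists_red_const hc
  exact ⟨a, hc, ha⟩

theorem IsRes.unique {c : K} {κ κ' : k} (h : IsRes T c κ) (h' : IsRes T c κ') : κ = κ' := by
  obtain ⟨hc, h1⟩ := h
  obtain ⟨hc', h2⟩ := h'
  have h3 := h1.symm.trans h2
  exact (algebraMap k Fb).injective (congrArg Prod.fst h3)

theorem isRes_zero_of_lt {c : K} (hc : T.A.valuation c < 1) : IsRes T c 0 := by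
  have hcA : c ∈ T.A := mem_A_iff.2 hc.le
  refine ⟨hcA, ?_⟩
  rw [map_zero]
  rcases eq_or_ne c 0 with rfl | h0
  · have : cst T 0 hcA = 0 := Subtype.ext (map_zero _)
    rw [this, map_zero]
    rfl
  · refine T.red_const_eq_zero hcA ?_
    rw [mem_A_iff, map_inv₀, not_le]
    have h5 : 0 < T.A.valuation c := zero_lt_iff.mpr ((T.A.valuation.ne_zero_iff).mpr h0)
    exact (one_lt_inv₀ h5).2 hc

theorem valuation_lt_one_of_isRes {c : K} (h : IsRes T c 0) : T.A.valuation c < 1 := by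
  obtain ⟨hc, h1⟩ := h
  by_contra hcon
  have h2 : T.A.valuation c = 1 := le_antisymm (mem_A_iff.1 hc) (not_lt.1 hcon)
  have h0 : c ≠ 0 := by
    rintro rfl
    rw [map_zero] at h2
    exact zero_ne_one h2
  have hinv : c⁻¹ ∈ T.A := by rw [mem_A_iff, map_inv₀, h2, inv_one]
  have h3 : cst T c hc * cst T c⁻¹ hinv = 1 := by
    apply Subtype.ext
    show algebraMap K F c * algebraMap K F c⁻¹ = 1
    rw [← map_mul, mul_inv_cancel₀ h0, map_one]
  have h4 := congrArg T.red h3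
  rw [map_mul, h1, map_one, map_zero] at h4
  have h5 := congrArg Prod.fst h4
  simp at h5

theorem valuation_eq_one_of_isRes {c : K} {κ : k} (h : IsRes T c κ) (hκ : κ ≠ 0) :
    T.A.valuation c = 1 := by
  refine le_antisymm (mem_A_iff.1 h.1) (not_lt.1 fun hlt => hκ ?_)
  exact h.unique (isRes_zero_of_lt hlt)

theorem isRes_one : IsRes T 1 1 := by
  refine ⟨T.A.one_mem, ?_⟩
  have : cst T 1 T.A.one_mem = 1 := Subtype.ext (map_one _)
  rw [this, map_one, map_one]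
  rfl

theorem IsRes.add {c c' : K} {κ κ' : k} (h : IsRes T c κ) (h' : IsRes T c' κ') :
    IsRes T (c + c') (κ + κ') := by
  obtain ⟨hc, h1⟩ := h
  obtain ⟨hc', h2⟩ := h'
  refine ⟨T.A.add_mem _ _ hc hc', ?_⟩
  have : cst T (c + c') (T.A.add_mem _ _ hc hc') = cst T c hc + cst T c' hc' :=
    Subtype.ext (map_add _ _ _)
  rw [this, map_add, h1, h2, map_add]
  rfl

theorem IsRes.mul {c c' : K} {κ κ' : k} (h : IsRes T c κ) (h' : IsRes T c' κ') :
    IsRes T (c * c') (κ * κ') := by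
  obtain ⟨hc, h1⟩ := h
  obtain ⟨hc', h2⟩ := h'
  refine ⟨T.A.mul_mem _ _ hc hc', ?_⟩
  have : cst T (c * c') (T.A.mul_mem _ _ hc hc') = cst T c hc * cst T c' hc' :=
    Subtype.ext (map_mul _ _ _)
  rw [this, map_mul, h1, h2, map_mul]
  rfl

theorem isRes_natCast (n : ℕ) : IsRes T (n : K) (n : k) := by
  induction n with
  | zero =>
    rw [Nat.cast_zero, Nat.cast_zero]
    exact isRes_zero_of_lt (by rw [map_zero]; exact zero_lt_one)
  | succ n ih =>
    rw [Nat.cast_succ, Nat.cast_succ]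
    exact ih.add isRes_one

theorem valuation_natCast_lt_one (p : ℕ) [CharP k p] : T.A.valuation (p : K) < 1 := by
  have h := isRes_natCast (T := T) p
  rw [CharP.cast_eq_zero k p] at h
  exact valuation_lt_one_of_isRes h

/-- `red (c u) = κ red u` -/
theorem IsRes.red_mul {c : K} {κ : k} (h : IsRes T c κ) (u v : T.O)
    (hv : (v : F) = algebraMap K F c * (u : F)) : T.red v = κ • T.red u := by
  obtain ⟨hc, h1⟩ := h
  have : v = cst T c hc * u := Subtype.ext hv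
  rw [this, map_mul, h1]
  apply Prod.ext
  · simp [Algebra.smul_def]
  · simp [Algebra.smul_def]

/-- `red (c u) = 0` if `|c| < 1` -/
theorem red_eq_zero_of_lt {c : K} (hc : T.A.valuation c < 1) (u v : T.O)
    (hv : (v : F) = algebraMap K F c * (u : F)) : T.red v = 0 := by
  rw [(isRes_zero_of_lt hc).red_mul u v hv, zero_smul]

/-- an element of `O` with reduction `(1, 1)` is a unit of `O` -/
theorem inv_mem_O {P : T.O} (hP : T.red P = 1) : ((P : F))⁻¹ ∈ T.O := by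
  have h1 : T.R₁.red ⟨P, P.2.1⟩ = 1 := congrArg Prod.fst hP
  have h2 : T.R₂.red ⟨P, P.2.2⟩ = 1 := congrArg Prod.snd hP
  exact ⟨T.R₁.inv_mem_of_red_ne_zero (by rw [h1]; exact one_ne_zero),
    T.R₂.inv_mem_of_red_ne_zero (by rw [h2]; exact one_ne_zero)⟩

theorem ne_zero_of_red_eq_one {P : T.O} (hP : T.red P = 1) : (P : F) ≠ 0 := by
  intro h0
  have : P = 0 := Subtype.ext h0
  rw [this, map_zero] at hP
  exact zero_ne_one hP

/-- a constant which lies in `O` lies in `A` -/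
theorem mem_A_of_algebraMap_mem_O {c : K} (h : algebraMap K F c ∈ T.O) : c ∈ T.A := h.1

/-! ### the special fibre -/

variable (𝒩 : NodalData T)

theorem red_mem_M {a b : ℕ} {u : T.O} (hu : (u : F) ∈ riemannRochSpace (𝒩.X a b)) :
    T.red u ∈ 𝒩.M 1 a b := by
  refine ⟨(𝒩.pole a b u hu).1, (𝒩.pole a b u hu).2, fun s => ?_⟩
  obtain ⟨c, h1, h2⟩ := 𝒩.glue a b u hu s
  exact ⟨c, by rw [Pi.one_apply, one_mul]; exact h1, h2⟩

variable {𝒩}

theorem triv_zero : Triv 𝒩 0 :=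
  ⟨0, 0, 0, 0, (𝒩.Msub 1 0 0).zero_mem, (𝒩.Msub 1 0 0).zero_mem, (add_zero 0).symm⟩

theorem Triv.add {w w' : Fb × Fb} (h : Triv 𝒩 w) (h' : Triv 𝒩 w') : Triv 𝒩 (w + w') := by
  obtain ⟨a, b, w₁, w₂, h₁, h₂, rfl⟩ := h
  obtain ⟨a', b', w₁', w₂', h₁', h₂', rfl⟩ := h'
  refine ⟨max a a', max b b', w₁ + w₁', w₂ + w₂', ?_, ?_, by abel⟩
  · exact (𝒩.Msub 1 (max a a') 0).add_mem (𝒩.M_mono 1 (le_max_left _ _) le_rfl h₁)
      (𝒩.M_mono 1 (le_max_right _ _) le_rfl h₁')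
  · exact (𝒩.Msub 1 0 (max b b')).add_mem (𝒩.M_mono 1 le_rfl (le_max_left _ _) h₂)
      (𝒩.M_mono 1 le_rfl (le_max_right _ _) h₂')

theorem Triv.smul {w : Fb × Fb} (h : Triv 𝒩 w) (κ : k) : Triv 𝒩 (κ • w) := by
  obtain ⟨a, b, w₁, w₂, h₁, h₂, rfl⟩ := h
  exact ⟨a, b, κ • w₁, κ • w₂, (𝒩.Msub 1 a 0).smul_mem κ h₁, (𝒩.Msub 1 0 b).smul_mem κ h₂,
    smul_add _ _ _⟩

theorem Triv.neg {w : Fb × Fb} (h : Triv 𝒩 w) : Triv 𝒩 (-w) := by
  have := h.smul (-1 : k)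
  rwa [neg_smul, one_smul] at this

theorem Triv.sub {w w' : Fb × Fb} (h : Triv 𝒩 w) (h' : Triv 𝒩 w') : Triv 𝒩 (w - w') := by
  rw [sub_eq_add_neg]
  exact h.add h'.neg

theorem triv_of_mem_left {a : ℕ} {w : Fb × Fb} (h : w ∈ 𝒩.M 1 a 0) : Triv 𝒩 w :=
  ⟨a, 0, w, 0, h, (𝒩.Msub 1 0 0).zero_mem, (add_zero w).symm⟩

theorem triv_of_mem_right {b : ℕ} {w : Fb × Fb} (h : w ∈ 𝒩.M 1 0 b) : Triv 𝒩 w :=
  ⟨0, b, 0, w, (𝒩.Msub 1 0 0).zero_mem, h, (zero_add w).symm⟩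

/-- if `κ ≠ 0` and `κ w` is trivial then `w` is trivial -/
theorem Triv.of_smul {w : Fb × Fb} {κ : k} (hκ : κ ≠ 0) (h : Triv 𝒩 (κ • w)) : Triv 𝒩 w := by
  have := h.smul κ⁻¹
  rwa [smul_smul, inv_mul_cancel₀ hκ, one_smul] at this

/-! ### the twisted spaces in characteristic `p` -/

variable [IsAlgClosed K] [IsAlgClosed k] {x : F} {t : Fb} (𝒩)

/-- in characteristic `p` the gluing datum of a `p`-torsion class is trivial (`ζ ^ p = 1 ⇒ ζ = 1`). -/
theorem exists_W_eq_M (hx : IsSepParam K x) (hb : IsSepParam k t) {p : ℕ} (hp : p.Prime) [CharP k p]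
    {D : Divisor K F} {f : T.O} (h : IsOne T p D f) :
    ∃ n : ℕ, 𝒩.IsLarge n ∧
      ∀ a b : ℕ, n ≤ a + b → (𝒩.W D a b : Set (Fb × Fb)) = 𝒩.M 1 a b := by
  obtain ⟨n, hn⟩ := 𝒩.exists_isLarge hx hb
  obtain ⟨ζ, hζ, hW⟩ := 𝒩.exists_zeta hx hb hn hp.ne_zero h
  have : Fact p.Prime := ⟨hp⟩
  have h1 : ζ = 1 := by
    funext s
    have h2 := hζ s
    have h3 : (ζ s - 1) ^ p = 0 := by
      rw [sub_pow_char, h2, one_pow, sub_self]
    rw [Pi.one_apply]
    exact sub_eq_zero.1 (pow_eq_zero_iff hp.ne_zero |>.1 h3)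
  subst h1
  exact ⟨n, hn, hW⟩

/-- sections with reduction `(1, 1)` -/
theorem exists_lift_one (hx : IsSepParam K x) (hb : IsSepParam k t) {p : ℕ} (hp : p.Prime) [CharP k p]
    {D : Divisor K F} {f : T.O} (h : IsOne T p D f) :
    ∃ n : ℕ, ∀ a b : ℕ, n ≤ a + b →
      ∃ u : T.O, (u : F) ∈ riemannRochSpace (D + 𝒩.X a b) ∧ T.red u = 1 := by
  obtain ⟨n, -, hW⟩ := exists_W_eq_M 𝒩 hx hb hp h
  refine ⟨n, fun a b hab => ?_⟩
  have h1 : (1 : Fb × Fb) ∈ (𝒩.W D a b : Set (Fb × Fb)) := by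
    rw [hW a b hab]
    exact 𝒩.one_mem_M a b
  exact h1

end Fermat.Agent.NP
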