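import Mathlib

/-!
# NP : the binomial formula for a prime exponent   (WP **NP-BINOM**, Mathlib only)

`(x + y) ^ p = x ^ p + p x ^ (p - 1) y + p y ^ 2 r + y ^ p`.
PROOF. `add_pow`, split off the terms `m = 0, 1, p` (`Finset.sum_range_succ`, `Finset.sum_range_succ'`); for `2 ≤ m ≤ p - 1`
`p ∣ p.choose m` (`Nat.Prime.dvd_choose_self`) and `y ^ 2 ∣ y ^ m`.  For `p = 2` take `r = 0`.
-/

set_option autoImplicit false

namespace Fermat.Agent.NP

theorem exists_add_pow_prime {R : Type*} [CommRing R] {p : ℕ} (hp : p.Prime) (x y : R) :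
    ∃ r : R, (x + y) ^ p = x ^ p + (p : R) * x ^ (p - 1) * y + (p : R) * y ^ 2 * r + y ^ p := by
  obtain ⟨q, rfl⟩ : ∃ q, p = q + 2 := ⟨p - 2, by have := hp.two_le; omega⟩
  refine ⟨∑ m ∈ Finset.range q,
    x ^ (m + 1) * y ^ (q - 1 - m) * (((q + 2).choose (m + 1) / (q + 2) : ℕ) : R), ?_⟩
  rw [add_pow, Finset.sum_range_succ, Finset.sum_range_succ, Finset.sum_range_succ']
  have h1 : ∑ m ∈ Finset.range q, x ^ (m + 1) * y ^ (q + 2 - (m + 1)) *
      (((q + 2).choose (m + 1) : ℕ) : R) = ((q + 2 : ℕ) : R) * y ^ 2 *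
      ∑ m ∈ Finset.range q,
        x ^ (m + 1) * y ^ (q - 1 - m) * (((q + 2).choose (m + 1) / (q + 2) : ℕ) : R) := by
    rw [Finset.mul_sum]
    refine Finset.sum_congr rfl fun m hm => ?_
    have hm' : m < q := Finset.mem_range.1 hm
    have hd : (q + 2) ∣ (q + 2).choose (m + 1) :=
      hp.dvd_choose_self (by omega) (by omega)
    have e1 : q + 2 - (m + 1) = 2 + (q - 1 - m) := by omega
    have e2 : (((q + 2).choose (m + 1) : ℕ) : R) =
        ((q + 2 : ℕ) : R) * (((q + 2).choose (m + 1) / (q + 2) : ℕ) : R) := by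
      rw [← Nat.cast_mul, Nat.mul_div_cancel' hd]
    rw [e1, pow_add, e2]
    ring
  rw [h1]
  have e3 : q + 2 - (q + 1) = 1 := by omega
  have e4 : (q + 2).choose (q + 1) = q + 2 := by
    rw [show q + 2 = (q + 1) + 1 from rfl, Nat.choose_succ_self_right]
  have e5 : q + 2 - 1 = q + 1 := by omega
  rw [e3, e4, e5]
  simp only [Nat.sub_self, pow_zero, Nat.choose_self, Nat.cast_one, mul_one, Nat.sub_zero,
    Nat.choose_zero_right, one_mul, pow_one]
  ring

end Fermat.Agent.NP
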