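import Fermat.Agent.NP.Basic

/-!
# NP : existence of a Cech datum with non trivial leading term   (WP **NP-EXIST**)

**`exists_cech`.**  `IsOne T p D f`, `char k = p`, `D` not principal.  Then there are `c ≠ 0`, `|c| < 1`, and `w` with
`Cech 𝒩 D c w` and `¬ Triv 𝒩 w`.

PROOF.  `n` from `exists_W_eq_M` (so `W D a b = M 1 a b` for `n ≤ a + b`).  `V₁ = L(D + X n 0)`, `V₂ = L(D + X 0 n)`,
`V = V₁ ⊔ V₂`.
(1) `V₁ ⊓ V₂ = ⊥` : `𝒩.mem_L_of_mem_of_mem` gives `u ∈ L(D)`, and a nonzero `u ∈ L(D)`, `deg D = 0`, makes `D`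
    principal (`IsOne.isPrincipal_of_mem_L hx hp h (i := 1)`, after `one_smul`; needs `1 < p`).  So `finrank V = f₁ + f₂`.
(2) `redSub V_i = W D n 0, W D 0 n = Msub 1 n 0, Msub 1 0 n` have `finrank = f_i` (`𝒩.on2` + `T.finrank_redSub_le`) and their
    intersection contains `(1, 1) ≠ 0`, so `finrank (Msub 1 n 0 ⊔ Msub 1 0 n) ≤ f₁ + f₂ - 1 < finrank V ≤ finrank (redSub V)`.
    Hence there is `z : T.O`, `z ∈ V`, `red z ∉ Msub 1 n 0 ⊔ Msub 1 0 n`.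
(3) `z = y₁ - y₂`, `y_i ∈ V_i`.  `y₁ ∉ O` (otherwise `y₂ ∈ O` too and `red z = red y₁ - red y₂`).  In particular `y₁ ≠ 0`;
    `T.exists_scale` : `c y₁ =: y₁' ∈ O`, `red y₁' ≠ 0`, `c ≠ 0`; `|c| < 1` because `y₁ ∉ O`.  `y₂' := c y₂ = y₁' - c z ∈ O`,
    `red y₂' = red y₁' =: r ∈ M 1 n 0 ∩ M 1 0 n = M 1 0 0`, so `r = (κ, κ)`, `κ ≠ 0` (`ND.eq_const_of_mem_LL_zero`).
    Choose `γ ∈ A` with residue `κ⁻¹` (`T.R₁.exists_const`).  `u₁ := γ y₁'`, `u₂ := γ y₂'`, `nn := γ z` :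
    `u₁ - u₂ = c nn`, `red nn = κ⁻¹ red z ∉ Msub 1 n 0 ⊔ Msub 1 0 n`.
(4) `not_triv_of_notMem` : an element `w` of `M 1 n n` which is `Triv` lies in `Msub 1 n 0 ⊔ Msub 1 0 n`
    (`red nn ∈ W D n n = M 1 n n`).   If `w = w₁ + w₂`, `w₁ ∈ M 1 a 0`, `w₂ ∈ M 1 0 b`, then `w₁ ∈ M 1 n 0` : at a place `Q` with
    `P₁ Q = 0`, `ord_Q w₁.1 ≥ 0` since `w₁.1 ∈ L(a P₁)`; at a place with `P₁ Q ≠ 0` we have `P₁' Q = 0` (`𝒩.disj₁`), so
    `ord_Q w₂.1 ≥ 0` and `ord_Q w₁.1 = ord_Q (w.1 - w₂.1) ≥ min (- n P₁ Q) 0`.  Same for the second component and for `w₂`.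
    (The gluing conditions of `w₁`, `w₂` are already known.)
-/

set_option autoImplicit false
set_option linter.unusedSectionVars false

open AlgebraicCurve

namespace Fermat.Agent.NP

open Fermat.Agent.RED Fermat.Agent.S24 Fermat.Agent.SS

variable {K F k Fb : Type*} [Field K] [Field F] [Algebra K F] [Field k] [Field Fb] [Algebra k Fb]
  [IsAlgClosed K] [IsAlgClosed k] {x : F} {t : Fb}
variable {T : TwoRed K F k Fb} (𝒩 : NodalData T)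

/-- step (4) -/
theorem mem_sup_of_triv {n : ℕ} {w : Fb × Fb} (hw : w ∈ 𝒩.M 1 n n) (h : Triv 𝒩 w) :
    w ∈ 𝒩.Msub 1 n 0 ⊔ 𝒩.Msub 1 0 n := by
  obtain ⟨a, b, w₁, w₂, h₁, h₂, rfl⟩ := h
  have e₁ : w₁ ∈ 𝒩.M 1 n 0 := by
    have h3 : w₁ ∈ 𝒩.Msub 1 n (max n b) := by
      have h4 : w₁ + w₂ ∈ 𝒩.Msub 1 n (max n b) := 𝒩.M_mono 1 le_rfl (le_max_left _ _) hw
      have h5 : w₂ ∈ 𝒩.Msub 1 n (max n b) := 𝒩.M_mono 1 (Nat.zero_le _) (le_max_right _ _) h₂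
      have := Submodule.sub_mem _ h4 h5
      rwa [add_sub_cancel_right] at this
    have h6 : w₁ ∈ 𝒩.M 1 a 0 ∩ 𝒩.M 1 n (max n b) := ⟨h₁, h3⟩
    rw [𝒩.M_inter] at h6
    exact 𝒩.M_mono 1 (min_le_right _ _) (min_le_left _ _) h6
  have e₂ : w₂ ∈ 𝒩.M 1 0 n := by
    have h3 : w₂ ∈ 𝒩.Msub 1 (max n a) n := by
      have h4 : w₁ + w₂ ∈ 𝒩.Msub 1 (max n a) n := 𝒩.M_mono 1 (le_max_left _ _) le_rfl hw
      have h5 : w₁ ∈ 𝒩.Msub 1 (max n a) n := 𝒩.M_mono 1 (le_max_right _ _) (Nat.zero_le _) h₁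
      have := Submodule.sub_mem _ h4 h5
      rwa [add_sub_cancel_left] at this
    have h6 : w₂ ∈ 𝒩.M 1 0 b ∩ 𝒩.M 1 (max n a) n := ⟨h₂, h3⟩
    rw [𝒩.M_inter] at h6
    exact 𝒩.M_mono 1 (min_le_left _ _) (min_le_right _ _) h6
  exact Submodule.add_mem_sup e₁ e₂

/-- `M 1 0 0` consists of the constants. -/
theorem eq_const_of_mem_M_zero (hx : IsSepParam K x) (hb : IsSepParam k t) {w : Fb × Fb}
    (hw : w ∈ 𝒩.M 1 0 0) : ∃ e : k, w = (algebraMap k Fb e, algebraMap k Fb e) := by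
  obtain ⟨s₀⟩ := 𝒩.nonempty_S hx hb
  refine ND.eq_const_of_mem_LL_zero (𝒩 := 𝒩) hb s₀ ?_
  obtain ⟨h1, h2, h3⟩ := hw
  refine ⟨?_, ?_, fun s => ?_⟩
  · simpa [NodalData.X₁] using h1
  · simpa [NodalData.X₂] using h2
  · obtain ⟨c, hc1, hc2⟩ := h3 s
    exact ⟨c, by simpa using hc1, hc2⟩

theorem exists_cech (hx : IsSepParam K x) (hb : IsSepParam k t) {p : ℕ} (hp : p.Prime) [CharP k p]
    {D : Divisor K F} {f : T.O} (h : IsOne T p D f) (hD : ¬ D.IsPrincipal) :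
    ∃ (c : K) (w : Fb × Fb), c ≠ 0 ∧ T.A.valuation c < 1 ∧ Cech 𝒩 D c w ∧ ¬ Triv 𝒩 w := by
  obtain ⟨n, hn, hW⟩ := exists_W_eq_M 𝒩 hx hb hp h
  have eW : ∀ a b : ℕ, n ≤ a + b → T.redSub (riemannRochSpace (D + 𝒩.X a b)) = 𝒩.Msub 1 a b :=
    fun a b hab => SetLike.coe_injective (by rw [𝒩.coe_Msub, ← hW a b hab]; rfl)
  set V₁ : Submodule K F := riemannRochSpace (D + 𝒩.X n 0) with hV₁
  set V₂ : Submodule K F := riemannRochSpace (D + 𝒩.X 0 n) with hV₂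
  have fV₁ : FiniteDimensional K V₁ := hx.finite_L _
  have fV₂ : FiniteDimensional K V₂ := hx.finite_L _
  have fM₁ := 𝒩.finite_Msub hb 1 n 0
  have fM₂ := 𝒩.finite_Msub hb 1 0 n
  have r₁ : T.redSub V₁ = 𝒩.Msub 1 n 0 := eW n 0 (by omega)
  have r₂ : T.redSub V₂ = 𝒩.Msub 1 0 n := eW 0 n (by omega)
  -- (1)
  have hinf : V₁ ⊓ V₂ = ⊥ := by
    rw [eq_bot_iff]
    rintro u ⟨hu₁, hu₂⟩
    have hu : u ∈ riemannRochSpace D := 𝒩.mem_L_of_mem_of_mem hu₁ hu₂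
    by_contra hu0
    exact hD (h.isPrincipal_of_mem_L hx hp (i := 1) one_pos hp.one_lt
      (by rwa [one_smul]) hu0)
  have hdimV : Module.finrank K ↥(V₁ ⊔ V₂) = Module.finrank K V₁ + Module.finrank K V₂ := by
    have := Submodule.finrank_sup_add_finrank_inf_eq V₁ V₂
    rwa [hinf, finrank_bot, add_zero] at this
  -- (2)
  have hd₁ : Module.finrank k (𝒩.Msub 1 n 0) ≤ Module.finrank K V₁ := by
    rw [← r₁]; exact T.finrank_redSub_le V₁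
  have hd₂ : Module.finrank k (𝒩.Msub 1 0 n) ≤ Module.finrank K V₂ := by
    rw [← r₂]; exact T.finrank_redSub_le V₂
  have hpos : 0 < Module.finrank k ↥(𝒩.Msub 1 n 0 ⊓ 𝒩.Msub 1 0 n) := by
    rw [Module.finrank_pos_iff_exists_ne_zero]
    refine ⟨⟨1, 𝒩.one_mem_M n 0, 𝒩.one_mem_M 0 n⟩, fun h0 => ?_⟩
    have := congrArg (fun z : ↥(𝒩.Msub 1 n 0 ⊓ 𝒩.Msub 1 0 n) => (z : Fb × Fb).1) h0
    exact one_ne_zero this
  have hsup := Submodule.finrank_sup_add_finrank_inf_eq (𝒩.Msub 1 n 0) (𝒩.Msub 1 0 n)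
  have hon := 𝒩.on2 (V₁ ⊔ V₂) inferInstance
  have hnle : ¬ T.redSub (V₁ ⊔ V₂) ≤ 𝒩.Msub 1 n 0 ⊔ 𝒩.Msub 1 0 n := by
    intro hle
    have := Submodule.finrank_mono hle
    omega
  obtain ⟨w, ⟨z, hzV, rfl⟩, hzn⟩ := SetLike.not_le_iff_exists.1 hnle
  -- (3)
  obtain ⟨y₁, hy₁, y₂, hy₂, hyz⟩ := Submodule.mem_sup.1 hzV
  have hy₁O : y₁ ∉ T.O := by
    intro hO
    have hO₂ : y₂ ∈ T.O := by
      have : y₂ = (z : F) - y₁ := by rw [← hyz]; ring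
      rw [this]
      exact T.O.sub_mem z.2 hO
    apply hzn
    have e : z = ⟨y₁, hO⟩ + ⟨y₂, hO₂⟩ := Subtype.ext hyz.symm
    rw [e, map_add]
    refine Submodule.add_mem_sup ?_ ?_
    · rw [← r₁]; exact ⟨⟨y₁, hO⟩, hy₁, rfl⟩
    · rw [← r₂]; exact ⟨⟨y₂, hO₂⟩, hy₂, rfl⟩
  have hy₁0 : y₁ ≠ 0 := fun h0 => hy₁O (h0 ▸ T.O.zero_mem)
  obtain ⟨c, hcO, hc0, hcred⟩ := T.exists_scale hy₁0
  have hc1 : T.A.valuation c < 1 := by
    by_contra hlt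
    push Not at hlt
    have hinv : c⁻¹ ∈ T.A := by
      rw [mem_A_iff, map_inv₀]
      exact inv_le_one_of_one_le₀ hlt
    apply hy₁O
    have : y₁ = algebraMap K F c⁻¹ * (algebraMap K F c * y₁) := by
      rw [← mul_assoc, ← map_mul, inv_mul_cancel₀ hc0, map_one, one_mul]
    rw [this]
    exact T.const_mul_mem_O hinv hcO
  have hcA : c ∈ T.A := mem_A_iff.2 hc1.le
  set Y₁ : T.O := ⟨algebraMap K F c * y₁, hcO⟩ with hY₁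
  set Z : T.O := cst T c hcA * z with hZ
  have hZred : T.red Z = 0 := red_eq_zero_of_lt hc1 z Z rfl
  set Y₂ : T.O := Y₁ - Z with hY₂
  have hY₂c : (Y₂ : F) = algebraMap K F c * (-y₂) := by
    show algebraMap K F c * y₁ - algebraMap K F c * (z : F) = _
    rw [← hyz]; ring
  have hY₂red : T.red Y₂ = T.red Y₁ := by rw [hY₂, map_sub, hZred, sub_zero]
  have hr₁ : T.red Y₁ ∈ 𝒩.M 1 n 0 := by
    have : T.red Y₁ ∈ T.redSub V₁ :=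
      ⟨Y₁, by
        show algebraMap K F c * y₁ ∈ V₁
        rw [← Algebra.smul_def]; exact V₁.smul_mem c hy₁, rfl⟩
    rwa [r₁] at this
  have hr₂ : T.red Y₁ ∈ 𝒩.M 1 0 n := by
    have : T.red Y₂ ∈ T.redSub V₂ :=
      ⟨Y₂, by rw [hY₂c, ← Algebra.smul_def]; exact V₂.smul_mem c (V₂.neg_mem hy₂), rfl⟩
    rwa [r₂, hY₂red] at this
  have hr : T.red Y₁ ∈ 𝒩.M 1 0 0 := by
    have : T.red Y₁ ∈ 𝒩.M 1 n 0 ∩ 𝒩.M 1 0 n := ⟨hr₁, hr₂⟩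
    rw [𝒩.M_inter] at this
    simpa using this
  obtain ⟨κ, hκ⟩ := eq_const_of_mem_M_zero 𝒩 hx hb hr
  have hκ0 : κ ≠ 0 := by
    rintro rfl
    apply hcred
    rw [hκ, map_zero]
    rfl
  obtain ⟨γ, hγ, hγred⟩ := T.R₁.exists_const κ⁻¹
  have hγres : IsRes T γ κ⁻¹ :=
    ⟨hγ, Prod.ext hγred ((T.const_red γ hγ ((T.const_mem γ).1 hγ)).symm.trans hγred)⟩
  have hone : κ⁻¹ • T.red Y₁ = 1 := by
    rw [hκ]
    apply Prod.ext
    · show κ⁻¹ • algebraMap k Fb κ = 1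
      rw [Algebra.smul_def, ← map_mul, inv_mul_cancel₀ hκ0, map_one]
    · show κ⁻¹ • algebraMap k Fb κ = 1
      rw [Algebra.smul_def, ← map_mul, inv_mul_cancel₀ hκ0, map_one]
  have hzM : T.red z ∈ 𝒩.M 1 n n := by
    have h1 : (z : F) ∈ riemannRochSpace (D + 𝒩.X n n) :=
      (sup_le (𝒩.L_X_mono D le_rfl (Nat.zero_le _)) (𝒩.L_X_mono D (Nat.zero_le _) le_rfl)) hzV
    have : T.red z ∈ T.redSub (riemannRochSpace (D + 𝒩.X n n)) := ⟨z, h1, rfl⟩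
    rwa [eW n n (by omega)] at this
  refine ⟨c, T.red (cst T γ hγ * z), hc0, hc1,
    ⟨n, n, cst T γ hγ * Y₁, cst T γ hγ * Y₂, cst T γ hγ * z, ?_, ?_, ?_, ?_, ?_, rfl⟩, ?_⟩
  · show algebraMap K F γ * (algebraMap K F c * y₁) ∈ V₁
    rw [← Algebra.smul_def, ← Algebra.smul_def]
    exact V₁.smul_mem _ (V₁.smul_mem _ hy₁)
  · show algebraMap K F γ * (Y₂ : F) ∈ V₂
    rw [hY₂c, ← Algebra.smul_def, ← Algebra.smul_def]
    exact V₂.smul_mem _ (V₂.smul_mem _ (V₂.neg_mem hy₂))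
  · rw [hγres.red_mul Y₁ _ rfl, hone]
  · rw [hγres.red_mul Y₂ _ rfl, hY₂red, hone]
  · show algebraMap K F γ * (algebraMap K F c * y₁) - algebraMap K F γ * (Y₂ : F) =
      algebraMap K F c * (algebraMap K F γ * (z : F))
    rw [hY₂c, ← hyz]
    ring
  · intro htriv
    rw [hγres.red_mul z _ rfl] at htriv
    exact hzn (mem_sup_of_triv 𝒩 hzM (htriv.of_smul (inv_ne_zero hκ0)))

end Fermat.Agent.NP
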