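import Fermat.Agent.NP.Basic

/-!
# NP : `p`-th roots on the special fibre   (WP **NP-GLUE**)

**`exists_pow_eq_of_mem_M`.**  `w ∈ M 1 a b`, `w.1 = v₁ ^ p`, `w.2 = v₂ ^ p`  ⟹  `β := (v₁, v₂) ∈ M 1 a b`.
PROOF. `v₁ ^ p ∈ L(X₁ a b) ≤ L(p • X₁ a b)` (`𝒩.X₁_nonneg`, `L_mono`), so `v₁ ∈ L(X₁ a b)` (`ws_mem_L_of_pow_mem`).  At a node `s`:
`exists_hasVal_of_mem_L (𝒩.x₁ s) hb (𝒩.X₁_apply_node a b s)` gives `HasVal (x₁ s) v₁ c₁`, same `c₂`; `HasVal.pow`, `HasVal.unique` and the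
gluing of `w` give `c₁ ^ p = c₂ ^ p`, so `c₁ = c₂` (`frobenius_inj k p`).

**`eq_of_pow_eq`.** Frobenius is injective on `Fb × Fb` (`Fb` has characteristic `p`: `charP_of_injective_algebraMap`).

**`triv_of_pow_eq`.** `w ^ p = β₁ ^ p - β₂ ^ p`, `β₁ ∈ M 1 a 0`, `β₂ ∈ M 1 0 b`  ⟹  `w = β₁ - β₂`, `Triv 𝒩 w` (`sub_pow_char` componentwise).
-/

set_option autoImplicit false
set_option linter.unusedSectionVars false

open AlgebraicCurve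

namespace Fermat.Agent.NP

open Fermat.Agent.RED Fermat.Agent.S24 Fermat.Agent.SS

variable {K F k Fb : Type*} [Field K] [Field F] [Algebra K F] [Field k] [Field Fb] [Algebra k Fb]
  [IsAlgClosed K] [IsAlgClosed k] {x : F} {t : Fb}
variable {T : TwoRed K F k Fb} (𝒩 : NodalData T)

theorem exists_pow_eq_of_mem_M (hb : IsSepParam k t) {p : ℕ} (hp : p.Prime) [CharP k p] {a b : ℕ}
    {w : Fb × Fb} (hw : w ∈ 𝒩.M 1 a b) (h₁ : ∃ v : Fb, w.1 = v ^ p) (h₂ : ∃ v : Fb, w.2 = v ^ p) :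
    ∃ β : Fb × Fb, β ∈ 𝒩.M 1 a b ∧ w = β ^ p := by
  have : Fact p.Prime := ⟨hp⟩
  obtain ⟨v₁, hv₁⟩ := h₁
  obtain ⟨v₂, hv₂⟩ := h₂
  obtain ⟨hw₁, hw₂, hw₃⟩ := hw
  have hle : ∀ E : Divisor k Fb, 0 ≤ E → E ≤ p • E := by
    intro E hE
    have h1 : (1 : ℕ) • E ≤ p • E := nsmul_le_nsmul_left hE hp.one_le
    rwa [one_nsmul] at h1
  have hm₁ : v₁ ∈ riemannRochSpace (𝒩.X₁ a b) :=
    ws_mem_L_of_pow_mem hp.ne_zero (L_mono (hle _ (𝒩.X₁_nonneg a b)) (hv₁ ▸ hw₁))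
  have hm₂ : v₂ ∈ riemannRochSpace (𝒩.X₂ a b) :=
    ws_mem_L_of_pow_mem hp.ne_zero (L_mono (hle _ (𝒩.X₂_nonneg a b)) (hv₂ ▸ hw₂))
  refine ⟨(v₁, v₂), ⟨hm₁, hm₂, fun s => ?_⟩, Prod.ext hv₁ hv₂⟩
  obtain ⟨c₁, hc₁⟩ := exists_hasVal_of_mem_L (𝒩.x₁ s) hb (𝒩.X₁_apply_node a b s) hm₁
  obtain ⟨c₂, hc₂⟩ := exists_hasVal_of_mem_L (𝒩.x₂ s) hb (𝒩.X₂_apply_node a b s) hm₂
  obtain ⟨c, hc, hc'⟩ := hw₃ s
  rw [hv₁] at hc
  rw [hv₂] at hc'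
  have e1 := (hc₁.pow p).unique hc
  have e2 := (hc₂.pow p).unique hc'
  have e3 : c₁ = c₂ := by
    apply frobenius_inj k p
    simp only [frobenius_def]
    rw [e1, e2, Pi.one_apply, one_mul]
  refine ⟨c₂, ?_, hc₂⟩
  rw [Pi.one_apply, one_mul, ← e3]
  exact hc₁

theorem triv_of_pow_eq {p : ℕ} (hp : p.Prime) [CharP k p] {a b : ℕ} {w β₁ β₂ : Fb × Fb}
    (h₁ : β₁ ∈ 𝒩.M 1 a 0) (h₂ : β₂ ∈ 𝒩.M 1 0 b) (hw : w ^ p = β₁ ^ p - β₂ ^ p) : Triv 𝒩 w := by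
  have : Fact p.Prime := ⟨hp⟩
  have : CharP Fb p := charP_of_injective_algebraMap (algebraMap k Fb).injective p
  have hw' : w = β₁ - β₂ := by
    apply Prod.ext
    · apply frobenius_inj Fb p
      simp only [frobenius_def]
      have := congrArg Prod.fst hw
      simp only [Prod.pow_fst, Prod.fst_sub] at this ⊢
      rw [this, sub_pow_char]
    · apply frobenius_inj Fb p
      simp only [frobenius_def]
      have := congrArg Prod.snd hw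
      simp only [Prod.pow_snd, Prod.snd_sub] at this ⊢
      rw [this, sub_pow_char]
  rw [hw']
  exact (triv_of_mem_left h₁).sub (triv_of_mem_right h₂)

end Fermat.Agent.NP
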