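import Fermat.Agent.NP.Binom

/-!
# NP : `λ = ζ - 1`   (WP **NP-LAMBDA**, Mathlib only)

`A` a valuation ring of a field `K`, `p` prime, `|p| < 1`, `ζ ^ p = 1`, `ζ ≠ 1`.
* `geom_sub_natCast_lt` : `|∑_{i < a} ζ^i - a| < 1`.  (`|ζ - 1| < 1` : `ζ ∈ A` is integral; `(ζ - 1)^p ≡ ζ^p - 1 = 0 mod p A`
  (`exists_add_pow_prime_eq` / `sub_pow_char` in the residue field), so `ζ - 1` is not a unit.  Then `ζ^i - 1 ∈ (ζ - 1) A`.)
* `val_lambda_pow` : `|ζ - 1|^(p-1) = |p|`.  (`p = ∏_{i=1}^{p-1} (1 - ζ^i)` : `IsPrimitiveRoot` of order `p`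
  (`IsPrimitiveRoot.of_...`/`IsPrimitiveRoot.iff` for a prime), `Polynomial.cyclotomic_prime`, `IsPrimitiveRoot.sub_one_...`,
  cf. the proofs in `Fermat/Agent/S33/Ray/Val.lean` (`valuation_lt_of_root`), `CFT/LS/Hensel.lean : val_zeta_sub_one_pow`,
  `S36/Mod/Lz.lean`; copy, do not import.  `1 - ζ^i = (1 - ζ) ∑_{j<i} ζ^j` and `|∑_{j<i} ζ^j| = |i| = 1` for `0 < i < p`.)
-/

set_option autoImplicit false

namespace Fermat.Agent.NP

variable {K : Type*} [Field K] (A : ValuationSubring K) {p : ℕ}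

namespace LambdaAux

theorem val_zeta {ζ : K} (hp : p.Prime) (h1 : ζ ^ p = 1) : A.valuation ζ = 1 := by
  have : A.valuation ζ ^ p = 1 := by rw [← map_pow, h1, map_one]
  exact (pow_eq_one_iff.1 this).resolve_right hp.ne_zero

/-- `z ^ p = - p z (1 + z r)` with `r` integral, for `z = ζ - 1`. -/
theorem exists_rel {ζ : K} (hp : p.Prime) (h1 : ζ ^ p = 1) :
    ∃ r : K, A.valuation r ≤ 1 ∧ (ζ - 1) ^ p = -((p : K) * (ζ - 1) * (1 + (ζ - 1) * r)) := by
  have hζ : ζ ∈ A := (A.valuation_le_one_iff ζ).1 (val_zeta A hp h1).le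
  obtain ⟨r, hr⟩ := exists_add_pow_prime hp (1 : A) (⟨ζ, hζ⟩ - 1)
  refine ⟨(r : K), (A.valuation_le_one_iff _).2 r.2, ?_⟩
  have h2 := congrArg (Subtype.val : A → K) hr
  have h3 : (1 + (ζ - 1)) ^ p = 1 ^ p + (p : K) * 1 ^ (p - 1) * (ζ - 1) + (p : K) * (ζ - 1) ^ 2 * (r : K)
      + (ζ - 1) ^ p := by
    simpa using h2
  rw [add_sub_cancel, h1, one_pow, one_pow] at h3
  linear_combination -h3

theorem val_sub_one_lt (hp : p.Prime) (hpA : A.valuation (p : K) < 1) {ζ : K} (h1 : ζ ^ p = 1) :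
    A.valuation (ζ - 1) < 1 := by
  have hz : A.valuation (ζ - 1) ≤ 1 :=
    (A.valuation.map_sub _ _).trans (max_le (val_zeta A hp h1).le (by simp))
  obtain ⟨r, hr, e⟩ := exists_rel A hp h1
  by_contra hcon
  have h1' : A.valuation (ζ - 1) = 1 := le_antisymm hz (not_lt.1 hcon)
  have h2 := congrArg A.valuation e
  rw [map_pow, h1', one_pow, Valuation.map_neg, map_mul, map_mul, h1', mul_one] at h2
  have h3 : A.valuation (1 + (ζ - 1) * r) ≤ 1 := by
    refine (A.valuation.map_add _ _).trans (max_le (by simp) ?_)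
    rw [map_mul, h1', one_mul]; exact hr
  have h4 : A.valuation (p : K) * A.valuation (1 + (ζ - 1) * r) < 1 :=
    lt_of_le_of_lt (mul_le_of_le_one_right' h3) hpA
  rw [← h2] at h4
  exact lt_irrefl _ h4

theorem val_pow_sub_one_lt {ξ : K} (h1 : A.valuation (ξ - 1) < 1) (i : ℕ) :
    A.valuation (ξ ^ i - 1) < 1 := by
  have hξ : A.valuation ξ ≤ 1 := by
    have : ξ = (ξ - 1) + 1 := by ring
    rw [this]
    exact (A.valuation.map_add _ _).trans (max_le h1.le (by simp))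
  induction i with
  | zero => simp
  | succ k ih =>
    have : ξ ^ (k + 1) - 1 = ξ ^ k * (ξ - 1) + (ξ ^ k - 1) := by ring
    rw [this]
    refine A.valuation.map_add_lt ?_ ih
    rw [map_mul, map_pow]
    exact lt_of_le_of_lt (mul_le_of_le_one_left' (pow_le_one' hξ k)) h1

end LambdaAux

theorem geom_sub_natCast_lt (hp : p.Prime) (hpA : A.valuation (p : K) < 1) {ζ : K} (h1 : ζ ^ p = 1)
    (a : ℕ) : A.valuation ((∑ i ∈ Finset.range a, ζ ^ i) - (a : K)) < 1 := by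
  have h3 : (∑ i ∈ Finset.range a, ζ ^ i) - (a : K) = ∑ i ∈ Finset.range a, (ζ ^ i - 1) := by
    rw [Finset.sum_sub_distrib]; simp
  rw [h3]
  exact A.valuation.map_sum_lt one_ne_zero fun i _ =>
    LambdaAux.val_pow_sub_one_lt A (LambdaAux.val_sub_one_lt A hp hpA h1) i

theorem val_lambda_pow (hp : p.Prime) (hpA : A.valuation (p : K) < 1) {ζ : K} (h1 : ζ ^ p = 1)
    (hne : ζ ≠ 1) : A.valuation (ζ - 1) ^ (p - 1) = A.valuation (p : K) := by
  obtain ⟨r, hr, e⟩ := LambdaAux.exists_rel A hp h1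
  have hz0 : ζ - 1 ≠ 0 := sub_ne_zero.2 hne
  have hlt := LambdaAux.val_sub_one_lt A hp hpA h1
  have e2 : (ζ - 1) ^ (p - 1) = -((p : K) * (1 + (ζ - 1) * r)) := by
    have hpp : p = (p - 1) + 1 := (Nat.succ_pred_eq_of_pos hp.pos).symm
    have e3 : (ζ - 1) ^ (p - 1) * (ζ - 1) = -((p : K) * (1 + (ζ - 1) * r)) * (ζ - 1) := by
      rw [← pow_succ, ← hpp, e]; ring
    exact mul_right_cancel₀ hz0 e3
  rw [← map_pow, e2, Valuation.map_neg, map_mul]
  have h5 : A.valuation (1 + (ζ - 1) * r) = 1 := by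
    have h6 : A.valuation ((ζ - 1) * r) < 1 := by
      rw [map_mul]; exact lt_of_le_of_lt (mul_le_of_le_one_right' hr) hlt
    have := A.valuation.map_add_eq_of_lt_left (x := 1) (y := (ζ - 1) * r) (by simpa using h6)
    rw [this, map_one]
  rw [h5, mul_one]

end Fermat.Agent.NP
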