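import Fermat.Agent.NP.Basic

/-!
# NP : operations on Cech data   (WP **NP-OPS**)

* `cech_zero` : `u₁ = u₂ = 1`, `n = 0`, `a = b = 0`.
* `Cech.add` : `u₁ u₁' - u₂ u₂' = c (n u₁' + u₂ n')`, reduction `w + w'`; memberships by `mul_mem_L`, `𝒩.wsX_add`
  (`D + X a 0 + (D' + X a' 0) = D + D' + X (a + a') (0 + 0)`).
* `Cech.nsmul` : induction (`succ_nsmul`).
* `Cech.scale` : `u₁ - u₂ = (c ε) n = c (ε n)`, `red (ε n) = κ red n` (`IsRes.red_mul`).
* `Cech.smul` : apply `g` : `NodalData.ws_smul_mem_L`, `smul_add`, `g • X a 0 = X a 0` from `hg.P` (as in `NodalData.zeta_smul`),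
  `g • X 0 b = X 0 b` from `hP'`, `hg.mem`, `hg.red` (`φ = 1`, `one_smul`), `smul_mul'`, `SemilinearAut.smul_algebraMap`, `smul_sub`.
-/

set_option autoImplicit false
set_option linter.unusedSectionVars false

open AlgebraicCurve

namespace Fermat.Agent.NP

open Fermat.Agent.RED Fermat.Agent.S24 Fermat.Agent.SS

variable {K F k Fb : Type*} [Field K] [Field F] [Algebra K F] [Field k] [Field Fb] [Algebra k Fb]
variable {T : TwoRed K F k Fb} {𝒩 : NodalData T}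

theorem cech_zero (c : K) : Cech 𝒩 0 c 0 := by
  have h1 : (1 : F) ∈ riemannRochSpace ((0 : Divisor K F) + 𝒩.X 0 0) := by
    have e : (0 : Divisor K F) + 𝒩.X 0 0 = 0 := by simp [NodalData.X]
    rw [e]
    exact one_mem_L_zero
  exact ⟨0, 0, 1, 1, 0, h1, h1, map_one _, map_one _, by simp, map_zero _⟩

theorem Cech.add {D D' : Divisor K F} {c : K} {w w' : Fb × Fb} (h : Cech 𝒩 D c w)
    (h' : Cech 𝒩 D' c w') : Cech 𝒩 (D + D') c (w + w') := by
  obtain ⟨a, b, u₁, u₂, n, h1, h2, r1, r2, e, rn⟩ := h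
  obtain ⟨a', b', u₁', u₂', n', h1', h2', r1', r2', e', rn'⟩ := h'
  refine ⟨a + a', b + b', u₁ * u₁', u₂ * u₂', n * u₁' + u₂ * n', ?_, ?_, ?_, ?_, ?_, ?_⟩
  · have := mul_mem_L h1 h1'
    have e1 : D + 𝒩.X a 0 + (D' + 𝒩.X a' 0) = D + D' + 𝒩.X (a + a') 0 := by
      have := 𝒩.X_add a 0 a' 0
      rw [add_zero] at this
      rw [← this]; abel
    rwa [e1] at this
  · have := mul_mem_L h2 h2'
    have e1 : D + 𝒩.X 0 b + (D' + 𝒩.X 0 b') = D + D' + 𝒩.X 0 (b + b') := by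
      have := 𝒩.X_add 0 b 0 b'
      rw [add_zero] at this
      rw [← this]; abel
    rwa [e1] at this
  · rw [map_mul, r1, r1', one_mul]
  · rw [map_mul, r2, r2', one_mul]
  · push_cast
    linear_combination (u₁' : F) * e + (u₂ : F) * e'
  · rw [map_add, map_mul, map_mul, rn, rn', r1', r2, mul_one, one_mul]

theorem Cech.nsmul {D : Divisor K F} {c : K} {w : Fb × Fb} (h : Cech 𝒩 D c w) (i : ℕ) :
    Cech 𝒩 (i • D) c (i • w) := by
  induction i with
  | zero => rw [zero_smul, zero_smul]; exact cech_zero c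
  | succ i ih => rw [succ_nsmul, succ_nsmul]; exact ih.add h

theorem Cech.scale {D : Divisor K F} {c ε : K} {w : Fb × Fb} {κ : k} (h : Cech 𝒩 D (c * ε) w)
    (hε : IsRes T ε κ) : Cech 𝒩 D c (κ • w) := by
  obtain ⟨a, b, u₁, u₂, n, h1, h2, r1, r2, e, rn⟩ := h
  obtain ⟨hεA, -⟩ := id hε
  refine ⟨a, b, u₁, u₂, cst T ε hεA * n, h1, h2, r1, r2, ?_, ?_⟩
  · rw [e, map_mul]
    push_cast
    rw [coe_cst, mul_assoc]
  · rw [← rn]
    exact hε.red_mul n _ (by push_cast; rw [coe_cst])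

/-- `NodalData.ws_smul_mem_L` without `IsAlgClosed` -/
theorem np_smul_mem_L (g : SemilinearAut K F) {E : Divisor K F} {u : F}
    (hu : u ∈ riemannRochSpace E) : g • u ∈ riemannRochSpace (g • E) := by
  rcases eq_or_ne u 0 with rfl | hu0
  · rw [smul_zero]; exact Submodule.zero_mem _
  have hgu : g • u ≠ 0 := by
    rw [SemilinearAut.smul_def]
    exact (map_ne_zero_iff _ (SemilinearAut.toRingAut g).injective).2 hu0
  rw [mem_L_iff_of_ne_zero hu0] at hu
  rw [mem_L_iff_of_ne_zero hgu]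
  intro v
  have h1 := hu (g⁻¹ • v)
  have h2 := SemilinearAut.ord_smul g (g⁻¹ • v) u
  rw [smul_inv_smul] at h2
  rw [h2, SemilinearAut.divisor_smul_apply]
  exact h1

theorem Cech.smul {D : Divisor K F} {c : K} {w : Fb × Fb} {g : SemilinearAut K F}
    (hg : IsCompat 𝒩 g 1) (hP' : g • 𝒩.P' = 𝒩.P') (h : Cech 𝒩 D c w) :
    Cech 𝒩 (g • D) (SemilinearAut.baseAut g c) w := by
  obtain ⟨a, b, u₁, u₂, n, h1, h2, r1, r2, e, rn⟩ := h
  have hX : ∀ a b : ℕ, g • 𝒩.X a b = 𝒩.X a b := by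
    intro a b
    rw [NodalData.X, smul_add, smul_comm, smul_comm g b, hg.P, hP']
  have hred : ∀ u : T.O, T.red ⟨g • (u : F), hg.mem u⟩ = T.red u := by
    intro u
    rw [hg.red u, one_smul, one_smul]
  refine ⟨a, b, ⟨g • (u₁ : F), hg.mem u₁⟩, ⟨g • (u₂ : F), hg.mem u₂⟩, ⟨g • (n : F), hg.mem n⟩,
    ?_, ?_, ?_, ?_, ?_, ?_⟩
  · have := np_smul_mem_L g h1
    rwa [smul_add, hX] at this
  · have := np_smul_mem_L g h2
    rwa [smul_add, hX] at this
  · rw [hred, r1]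
  · rw [hred, r2]
  · show g • (u₁ : F) - g • (u₂ : F) = algebraMap K F (SemilinearAut.baseAut g c) * g • (n : F)
    rw [← smul_sub, e, smul_mul', SemilinearAut.smul_algebraMap]
  · rw [hred, rn]

end Fermat.Agent.NP
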