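import Fermat.Agent.NP.Sat

/-!
# NP : the leading term is well defined in `H¹(Z, O)`   (WP **NP-UNIQ**)

**`Cech.triv_sub`.**  `IsOne T p D f`, `c ≠ 0`, `Cech 𝒩 D c w`, `Cech 𝒩 D c w'`  ⟹  `Triv 𝒩 (w - w')`.

PROOF.  Data `(a, b, u₁, u₂, n)`, `(a', b', u₁', u₂', n')`.  `-D` is again `IsOne` (`IsOne.exists_neg`); by `exists_lift_one`
(applied to `-D`) there are `m`, `v₁ ∈ L(-D + X m 0) ∩ O`, `v₂ ∈ L(-D + X 0 m) ∩ O` with reduction `(1, 1)`.  Put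
`P := u₁ v₁`, `P' := u₁' v₁`  (in `L(X (a + a' + m) 0) ∩ O`, use `mul_mem_L`, `𝒩.wsX_add`, `L_mono`/`𝒩.L_X_mono`),
`Q := u₂ v₂`, `Q' := u₂' v₂`  (in `L(X 0 (b + b' + m)) ∩ O`), all with reduction `(1, 1)`.  Then
  `P Q' - P' Q = v₁ v₂ (u₁ u₂' - u₁' u₂) = v₁ v₂ ((u₂ + c n) u₂' - (u₂' + c n') u₂) = c Z`,  `Z := v₁ v₂ (n u₂' - n' u₂) ∈ O`,
`red Z = w - w'`, and `Z = Q (- P' / c) + P (Q' / c)`.  Conclude with `triv_of_eq`.
-/

set_option autoImplicit false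
set_option linter.unusedSectionVars false

open AlgebraicCurve

namespace Fermat.Agent.NP

open Fermat.Agent.RED Fermat.Agent.S24 Fermat.Agent.SS

variable {K F k Fb : Type*} [Field K] [Field F] [Algebra K F] [Field k] [Field Fb] [Algebra k Fb]
  [IsAlgClosed K] [IsAlgClosed k] {x : F} {t : Fb}
variable {T : TwoRed K F k Fb} {𝒩 : NodalData T}


/-- `u ∈ L(D + X a b)`, `v ∈ L(-D + X a' b')`  ⟹  `u v ∈ L(X A B)` for `a + a' ≤ A`, `b + b' ≤ B`. -/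
theorem mul_mem_L_X {D : Divisor K F} {a b a' b' A B : ℕ} {u v : F}
    (hu : u ∈ riemannRochSpace (D + 𝒩.X a b)) (hv : v ∈ riemannRochSpace (-D + 𝒩.X a' b'))
    (hA : a + a' ≤ A) (hB : b + b' ≤ B) : u * v ∈ riemannRochSpace (𝒩.X A B) := by
  have h := mul_mem_L hu hv
  have e : D + 𝒩.X a b + (-D + 𝒩.X a' b') = 𝒩.X (a + a') (b + b') := by
    rw [𝒩.wsX_add]; abel
  rw [e] at h
  exact L_mono (𝒩.X_mono hA hB) h

theorem Cech.triv_sub (hx : IsSepParam K x) (hb : IsSepParam k t) {p : ℕ} (hp : p.Prime) [CharP k p]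
    {D : Divisor K F} {f : T.O} (h : IsOne T p D f) {c : K} (hc : c ≠ 0) {w w' : Fb × Fb}
    (h₁ : Cech 𝒩 D c w) (h₂ : Cech 𝒩 D c w') : Triv 𝒩 (w - w') := by
  obtain ⟨a, b, u₁, u₂, n, hu₁, hu₂, ru₁, ru₂, hn, rn⟩ := h₁
  obtain ⟨a', b', u₁', u₂', n', hu₁', hu₂', ru₁', ru₂', hn', rn'⟩ := h₂
  obtain ⟨f', h'⟩ := h.exists_neg
  obtain ⟨m, hm⟩ := exists_lift_one 𝒩 hx hb hp h'
  obtain ⟨v₁, hv₁, rv₁⟩ := hm m 0 (by omega)
  obtain ⟨v₂, hv₂, rv₂⟩ := hm 0 m (by omega)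
  have hc' : algebraMap K F c ≠ 0 := by
    simpa using hc
  have hP : ((u₁ * v₁ : T.O) : F) ∈ riemannRochSpace (𝒩.X (a + a' + m) 0) :=
    mul_mem_L_X hu₁ hv₁ (by omega) (by omega)
  have hP' : ((u₁' * v₁ : T.O) : F) ∈ riemannRochSpace (𝒩.X (a + a' + m) 0) :=
    mul_mem_L_X hu₁' hv₁ (by omega) (by omega)
  have hQ : ((u₂ * v₂ : T.O) : F) ∈ riemannRochSpace (𝒩.X 0 (b + b' + m)) :=
    mul_mem_L_X hu₂ hv₂ (by omega) (by omega)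
  have hQ' : ((u₂' * v₂ : T.O) : F) ∈ riemannRochSpace (𝒩.X 0 (b + b' + m)) :=
    mul_mem_L_X hu₂' hv₂ (by omega) (by omega)
  have hy₁ := (riemannRochSpace (𝒩.X (a + a' + m) 0)).smul_mem (-c⁻¹) hP'
  have hy₂ := (riemannRochSpace (𝒩.X 0 (b + b' + m))).smul_mem (c⁻¹) hQ'
  have key := triv_of_eq 𝒩 hx hb (a + a' + m) (b + b' + m) (u₁ * v₁) (u₂ * v₂)
    (by rw [map_mul, ru₁, rv₁, one_mul]) (by rw [map_mul, ru₂, rv₂, one_mul]) hP hQ hy₁ hy₂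
    (v₁ * v₂ * (n * u₂' - n' * u₂)) (by
      have e₁ : (u₁ : F) = (u₂ : F) + algebraMap K F c * (n : F) := by rw [← hn]; ring
      have e₂ : (u₁' : F) = (u₂' : F) + algebraMap K F c * (n' : F) := by rw [← hn']; ring
      simp only [Algebra.smul_def, map_neg, map_inv₀]
      push_cast
      rw [e₁, e₂]
      field_simp
      ring)
  have : T.red (v₁ * v₂ * (n * u₂' - n' * u₂)) = w - w' := by
    rw [map_mul, map_mul, map_sub, map_mul, map_mul, rv₁, rv₂, ru₂, ru₂', rn, rn']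
    simp
  rwa [this] at key

end Fermat.Agent.NP
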