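import Fermat.Agent.NP.New
import Fermat.Agent.NP.Exist
import Fermat.Agent.NP.Uniq
import Fermat.Agent.NP.Ops
import Fermat.Agent.NP.Lambda

/-!
# NP : the abstract theorem

`g` a semilinear automorphism compatible with the nodal datum, inducing the identity on the special fibre ("inertia"),
fixing the two charts, `g ζ = ζ ^ a` for a primitive `p`-th root of unity `ζ` of `K`.  Then `g` acts by `a` on the classes
`[D]`, `IsOne T p D f`, `NLHyp T p f`.
-/

set_option autoImplicit false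
set_option linter.unusedSectionVars false

open AlgebraicCurve

namespace Fermat.Agent.NP

open Fermat.Agent.RED Fermat.Agent.S24 Fermat.Agent.SS

variable {K F k Fb : Type*} [Field K] [Field F] [Algebra K F] [Field k] [Field Fb] [Algebra k Fb]
  [IsAlgClosed K] [IsAlgClosed k] {x : F} {t : Fb}
variable {T : TwoRed K F k Fb} (𝒩 : NodalData T)

/-- comparison of two elements through their `(p-1)`-th powers -/
theorem exists_isRes_of_pow_le {p : ℕ} (hp : p.Prime) {c d : K} (hd : d ≠ 0)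
    (h : T.A.valuation c ^ (p - 1) ≤ T.A.valuation d ^ (p - 1)) :
    ∃ (ε : K) (κ : k), c = d * ε ∧ IsRes T ε κ := by
  have hp1 : p - 1 ≠ 0 := by have := hp.two_le; omega
  have hle : T.A.valuation c ≤ T.A.valuation d := by
    by_contra hcon
    push Not at hcon
    exact absurd h (not_le.2 (pow_lt_pow_left₀ hcon zero_le hp1))
  have hmem : c / d ∈ T.A := by
    rw [mem_A_iff, map_div₀]
    exact div_le_one_of_le₀ hle zero_le
  obtain ⟨κ, hκ⟩ := exists_isRes hmem
  exact ⟨c / d, κ, by field_simp, hκ⟩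

theorem isPrincipal_of_new (hx : IsSepParam K x) (hb : IsSepParam k t) {p : ℕ} (hp : p.Prime)
    [CharP k p] {g : SemilinearAut K F} (hg : IsCompat 𝒩 g 1) (hP' : g • 𝒩.P' = 𝒩.P') {ζ : K}
    (hζ : ζ ^ p = 1) (hζ1 : ζ ≠ 1) {a : ℕ} (ha : SemilinearAut.baseAut g ζ = ζ ^ a)
    {D : Divisor K F} {f : T.O} (h : IsOne T p D f) (hNL : NLHyp T p (f : F))
    (hD : ¬ D.IsPrincipal) : (g • D + ((p - 1) * a) • D).IsPrincipal := by
  by_contra hD₀
  have hpA : T.A.valuation (p : K) < 1 := valuation_natCast_lt_one p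
  set lam : K := ζ - 1 with hlam
  have hlam0 : lam ≠ 0 := sub_ne_zero.2 hζ1
  have hval : T.A.valuation lam ^ (p - 1) = T.A.valuation (p : K) :=
    val_lambda_pow T.A hp hpA hζ hζ1
  -- the datum of `D` at the scale `lam`
  obtain ⟨c, w, hc0, hc1, hC, hw⟩ := exists_cech 𝒩 hx hb hp h hD
  have hcle : T.A.valuation c ^ (p - 1) ≤ T.A.valuation lam ^ (p - 1) := by
    rw [hval]
    by_contra hcon
    push Not at hcon
    exact hw (hC.triv_of_gt hx hb hp h hNL hc0 hc1 hcon)
  obtain ⟨ε, κ, rfl, hκ⟩ := exists_isRes_of_pow_le (T := T) hp hlam0 hcle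
  have hC₁ : Cech 𝒩 D lam (κ • w) := hC.scale hκ
  -- `g • D`
  have hglam : SemilinearAut.baseAut g lam = lam * ∑ i ∈ Finset.range a, ζ ^ i := by
    rw [hlam, map_sub, ha, map_one, mul_comm, geom_sum_mul]
  have hgeom : IsRes T (∑ i ∈ Finset.range a, ζ ^ i) (a : k) := by
    have h1 := isRes_zero_of_lt (T := T) (geom_sub_natCast_lt T.A hp hpA hζ a)
    have h2 := h1.add (isRes_natCast (T := T) a)
    rwa [sub_add_cancel, zero_add] at h2
  have hC₂ : Cech 𝒩 (g • D) lam ((a : k) • κ • w) := by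
    have h1 := hC₁.smul hg hP'
    rw [hglam] at h1
    exact h1.scale hgeom
  have hC₃ : Cech 𝒩 (g • D + ((p - 1) * a) • D) lam 0 := by
    have h1 := hC₂.add (hC₁.nsmul ((p - 1) * a))
    have h2 : (a : k) • κ • w + ((p - 1) * a) • κ • w = 0 := by
      rw [← Nat.cast_smul_eq_nsmul k ((p - 1) * a), ← add_smul, ← Nat.cast_add]
      have h3 : a + (p - 1) * a = p * a := by
        obtain ⟨m, rfl⟩ : ∃ m, p = m + 1 := ⟨p - 1, by have := hp.two_le; omega⟩
        simp only [Nat.add_sub_cancel]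
        ring
      rw [h3, Nat.cast_mul, CharP.cast_eq_zero, zero_mul, zero_smul]
    rwa [h2] at h1
  -- the datum of `D₀`
  have h₀ := (h.smul hg).add (h.nsmul ((p - 1) * a))
  obtain ⟨c₀, w₀, hc₀, -, hC₀, hw₀⟩ := exists_cech 𝒩 hx hb hp h₀ hD₀
  have hle₀ : T.A.valuation lam ^ (p - 1) ≤ T.A.valuation c₀ ^ (p - 1) := by
    rw [hval]
    by_contra hcon
    push Not at hcon
    exact hw₀ (hC₀.triv_of_lt hx hb hp h₀ hc₀ hcon)
  obtain ⟨ε₀, κ₀, hε₀, hκ₀⟩ := exists_isRes_of_pow_le (T := T) hp hc₀ hle₀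
  rw [hε₀] at hC₃
  have hC₄ := hC₃.scale hκ₀
  rw [smul_zero] at hC₄
  have := hC₀.triv_sub hx hb hp h₀ hc₀ hC₄
  rw [sub_zero] at this
  exact hw₀ this

/-- **(NEW-p), abstract form.** -/
theorem smul_eq_nsmul_of_new (hx : IsSepParam K x) (hb : IsSepParam k t) {p : ℕ} (hp : p.Prime)
    [CharP k p] {g : SemilinearAut K F} (hg : IsCompat 𝒩 g 1) (hP' : g • 𝒩.P' = 𝒩.P') {ζ : K}
    (hζ : ζ ^ p = 1) (hζ1 : ζ ≠ 1) {a : ℕ} (ha : SemilinearAut.baseAut g ζ = ζ ^ a)
    {D : Divisor.degZero (K := K) (F := F)} {f : T.O} (h : IsOne T p (D : Divisor K F) f)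
    (hNL : NLHyp T p (f : F)) : g • Pic0.mk D = a • Pic0.mk D := by
  have mk0 : ∀ E : Divisor.degZero (K := K) (F := F), (E : Divisor K F).IsPrincipal →
      Pic0.mk E = 0 := by
    intro E hE
    rw [Pic0.mk, QuotientAddGroup.eq_zero_iff, AddSubgroup.mem_addSubgroupOf]
    exact hE
  by_cases hD : (D : Divisor K F).IsPrincipal
  · rw [mk0 D hD, smul_zero]
    have h0 : (0 : Pic0 K F) = Pic0.mk 0 := rfl
    rw [h0, SemilinearAut.pic0_smul_mk, map_zero]
  have h1 := isPrincipal_of_new 𝒩 hx hb hp hg hP' hζ hζ1 ha h hNL hD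
  have h2 : g • Pic0.mk D + ((p - 1) * a) • Pic0.mk D = 0 := by
    rw [SemilinearAut.pic0_smul_mk, ← pic0_mk_nsmul, ← Pic0.mk_add]
    apply mk0
    have h3 : ((SemilinearAut.degZeroSMulHom g D + ((p - 1) * a) • D :
        Divisor.degZero (K := K) (F := F)) : Divisor K F)
        = g • (D : Divisor K F) + ((p - 1) * a) • (D : Divisor K F) := by
      rw [AddSubgroup.coe_add, SemilinearAut.coe_degZeroSMulHom]
      rfl
    rw [h3]
    exact h1
  have h4 : p • Pic0.mk D = 0 := by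
    rw [← pic0_mk_nsmul]
    apply mk0
    refine ⟨(f : F), h.ne_zero, fun v => ?_⟩
    rw [← h.ord v]
    show (p • (D : Divisor K F)) v = _
    rw [Finsupp.smul_apply, nsmul_eq_mul]
  have h5 : a • Pic0.mk D + ((p - 1) * a) • Pic0.mk D = 0 := by
    rw [← add_smul]
    have h3 : a + (p - 1) * a = a * p := by
      obtain ⟨m, rfl⟩ : ∃ m, p = m + 1 := ⟨p - 1, by have := hp.two_le; omega⟩
      simp only [Nat.add_sub_cancel]
      ring
    rw [h3, mul_smul, h4, smul_zero]
  exact add_right_cancel (h2.trans h5.symm)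

end Fermat.Agent.NP
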