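import Fermat.Agent.RED.Deuring.Basic

/-!
# NP : the first order term of a norm from the reduction of norms   (WP **NP-TRACE**)

`F / F₀` a finite extension of fields over `K`; `R : RedData K F₀ k Fb`; `𝒪 ⊆ F` a subring containing the integral constants;
`ρ ψ : 𝒪 →+* Fb` ring homomorphisms with `ρ c = c̄`, `ψ c = c̄ ^ p` on the constants, such that
  `N_{F/F₀} u ∈ R.O`,  `red (N u) = ρ u * ψ u`   for ALL `u ∈ 𝒪`                                   (hN)
(for `X₀(M p) → X₀(M)` : `𝒪 = O₁ ∩ O₂`, `ρ = red₁`, `ψ = (coefficient Frobenius) ∘ red₂`, `SS.twoRed_norm_red`).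

**`exists_theta`.**  For `h ∈ 𝒪` and `ε ∈ A`, `ε̄ = 0` :  `N (1 + ε h) = 1 + ε θ`, `θ ∈ R.O`, `red θ = ρ h`.

PROOF.  `G(Y) := N (Y + h) ∈ F₀[Y]` is a monic polynomial of degree `d = [F : F₀]` : `G = charpoly` of the multiplication by `-h`
(`Algebra.norm_apply`, `LinearMap.det`, `LinearMap.charpoly`, `Matrix.charpoly`, `Matrix.eval_charpoly`-type lemmas; or
`Algebra.norm_eq_matrix_det` with `Algebra.leftMulMatrix` and `Matrix.det (X • 1 + C M)`), say `G = ∑ σ_i Y^(d-i)`, `σ_0 = 1`.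
 (1) INTEGRALITY.  `k` is infinite: choose `Y_0, …, Y_d ∈ A` with pairwise distinct residues (`R.exists_const`).  `G(Y_j) = N(Y_j + h) ∈ R.O` by (hN).
     Lagrange interpolation (`Lagrange.eq_interpolate_of_eval_eq` / `Lagrange.interpolate_apply`, `Lagrange.basis`) : `G = ∑_j G(Y_j) ℓ_j`, and
     `ℓ_j = ∏_{i ≠ j} (Y - Y_i)/(Y_j - Y_i)` has coefficients in (the image of) `A` because `Y_j - Y_i` is a unit of `A`.  So all `σ_i ∈ R.O`:
     `G = Ĝ.map (subtype)`, `Ĝ ∈ R.O[Y]` (`Polynomial.lifts`, `Polynomial.toSubring`).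
 (2) REDUCTION.  `Ḡ := Ĝ.map red ∈ Fb[Y]` satisfies `Ḡ(ȳ) = (ȳ + ρ h)(ȳ^p + ψ h)` for all `ȳ ∈ k`; `k` infinite ⟹
     `Ḡ = (Y + C (ρ h)) (Y^p + C (ψ h))` (`Polynomial.eq_of_infinite_eval_eq`, evaluation at `algebraMap k Fb ȳ`, injective).
     `Ḡ` is monic of degree `d` and the right side has degree `p + 1` : `d = p + 1`, and the coefficient of `Y^p = Y^(d-1)` is `red σ_1 = ρ h` (`p ≥ 2`).
 (3) For `ε ≠ 0` : `N(1 + ε h) = N(ε) N(ε⁻¹ + h) = ε^d G(ε⁻¹) = ∑ σ_i ε^i` (`Algebra.norm_algebraMap`); `θ := ∑_{i ≥ 1} σ_i ε^(i-1)`,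
     `red θ = red σ_1` since `ε̄ = 0`.  For `ε = 0` take any `θ` with `red θ = ρ h` (`R.red_surjective`).
(ALTERNATIVE for (3): `Matrix.det_one_add_smul`.)
-/

set_option autoImplicit false
set_option linter.unusedSectionVars false

namespace Fermat.Agent.NP

open Fermat.Agent.RED Polynomial

namespace TraceAux

/-- the polynomial `det (1 + Y M)` -/
noncomputable def detPoly {n R : Type*} [Fintype n] [DecidableEq n] [CommRing R] (M : Matrix n n R) : R[X] :=
  Matrix.det ((X : R[X]) • M.map C + (1 : Matrix n n R).map C)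

theorem natDegree_detPoly_le {n R : Type*} [Fintype n] [DecidableEq n] [CommRing R]
    (M : Matrix n n R) : (detPoly M).natDegree ≤ Fintype.card n :=
  Polynomial.natDegree_det_X_add_C_le M 1

theorem eval_detPoly {n R : Type*} [Fintype n] [DecidableEq n] [CommRing R] (M : Matrix n n R)
    (r : R) : (detPoly M).eval r = Matrix.det (1 + r • M) := by
  have h := (evalRingHom r).map_det ((X : R[X]) • M.map C + (1 : Matrix n n R).map C)
  rw [coe_evalRingHom] at h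
  rw [detPoly, h]
  congr 1
  ext i j
  by_cases hij : i = j
  · simp [hij, add_comm]
    exact mul_comm _ _
  · simp [hij]
    exact mul_comm _ _

/-- Lagrange interpolation: integrality of the coefficients. -/
theorem mem_lifts_of_eval {F₀ : Type*} [Field F₀] (O : Subring F₀) (P : F₀[X]) {ι : Type*}
    [DecidableEq ι] (s : Finset ι) (y : ι → F₀) (hdeg : P.degree < s.card)
    (hy : ∀ i ∈ s, y i ∈ O) (hinv : ∀ i ∈ s, ∀ j ∈ s, i ≠ j → (y i - y j)⁻¹ ∈ O)
    (hinj : Set.InjOn y s) (hP : ∀ i ∈ s, P.eval (y i) ∈ O) : P ∈ lifts O.subtype := by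
  have hC : ∀ a ∈ O, (C a : F₀[X]) ∈ lifts O.subtype := fun a ha =>
    ⟨C ⟨a, ha⟩, by simp⟩
  rw [Lagrange.eq_interpolate hinj hdeg, Lagrange.interpolate_apply]
  refine Subsemiring.sum_mem _ fun i hi => ?_
  refine Subsemiring.mul_mem _ (hC _ (hP i hi)) ?_
  rw [Lagrange.basis]
  refine Subsemiring.prod_mem _ fun j hj => ?_
  rw [Lagrange.basisDivisor]
  have hj' := Finset.mem_erase.1 hj
  refine Subsemiring.mul_mem _ (hC _ (hinv i hi j hj'.2 hj'.1.symm)) ?_
  have : (X - C (y j) : F₀[X]) = X + C (-(y j)) := by rw [C_neg, sub_eq_add_neg]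
  rw [this]
  exact Subsemiring.add_mem _ (X_mem_lifts _) (hC _ (O.neg_mem (hy j hj'.2)))

theorem coeff_one_aux {B : Type*} [CommRing B] (a b : B) {p : ℕ} (hp : 2 ≤ p) :
    ((1 + X * C a) * (1 + X ^ p * C b) : B[X]).coeff 1 = a := by
  have : ((1 + X * C a) * (1 + X ^ p * C b) : B[X]) =
      1 + C a * X + C b * X ^ p + C (a * b) * X ^ (p + 1) := by
    rw [C_mul]; ring
  rw [this]
  have h1 : (1 : ℕ) ≠ p := by omega
  have h2 : (1 : ℕ) ≠ p + 1 := by omega
  rw [coeff_add, coeff_add, coeff_add, coeff_C_mul, coeff_C_mul, coeff_C_mul, coeff_X_pow,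
    coeff_X_pow, if_neg h1, if_neg h2, coeff_X_one, coeff_one]
  simp

end TraceAux

theorem exists_theta {K F₀ F k Fb : Type*} [Field K] [Field F₀] [Field F] [Algebra K F₀] [Algebra K F]
    [Algebra F₀ F] [IsScalarTower K F₀ F] [Module.Finite F₀ F] [Field k] [Field Fb] [Algebra k Fb]
    [Infinite k] (R : RedData K F₀ k Fb) (𝒪 : Subring F) (ρ ψ : 𝒪 →+* Fb) {p : ℕ} (hp : 2 ≤ p)
    (hc : ∀ c : K, algebraMap K F₀ c ∈ R.O → algebraMap K F c ∈ 𝒪)
    (hρ : ∀ (c : K) (h₀ : algebraMap K F₀ c ∈ R.O), ρ ⟨algebraMap K F c, hc c h₀⟩ = R.red ⟨_, h₀⟩)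
    (hψ : ∀ (c : K) (h₀ : algebraMap K F₀ c ∈ R.O),
      ψ ⟨algebraMap K F c, hc c h₀⟩ = R.red ⟨_, h₀⟩ ^ p)
    (hN : ∀ u : 𝒪, ∃ h : Algebra.norm F₀ (u : F) ∈ R.O, R.red ⟨_, h⟩ = ρ u * ψ u)
    (h : 𝒪) (ε : K) (hε : algebraMap K F₀ ε ∈ R.O) (hε0 : R.red ⟨_, hε⟩ = 0) :
    ∃ θ : R.O, Algebra.norm F₀ (1 + algebraMap K F ε * (h : F)) = 1 + algebraMap K F₀ ε * (θ : F₀) ∧
      R.red θ = ρ h := by
  classical
  set b := Module.finBasis F₀ F with hb
  set M := Algebra.leftMulMatrix b (h : F) with hM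
  set P := TraceAux.detPoly M with hPdef
  -- evaluation of `P` at constants
  have hPev : ∀ c : K, P.eval (algebraMap K F₀ c) =
      Algebra.norm F₀ (1 + algebraMap K F c * (h : F)) := by
    intro c
    rw [hPdef, TraceAux.eval_detPoly, Algebra.norm_eq_matrix_det b, map_add, map_one, map_mul,
      IsScalarTower.algebraMap_apply K F₀ F, AlgHom.commutes, ← Algebra.smul_def]
  -- integral constants
  have hPint : ∀ (c : K) (h₀ : algebraMap K F₀ c ∈ R.O),
      ∃ hh : P.eval (algebraMap K F₀ c) ∈ R.O, R.red ⟨_, hh⟩ =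
        (1 + R.red ⟨_, h₀⟩ * ρ h) * (1 + R.red ⟨_, h₀⟩ ^ p * ψ h) := by
    intro c h₀
    obtain ⟨h1, h2⟩ := hN (1 + ⟨algebraMap K F c, hc c h₀⟩ * h)
    have e : ((1 + ⟨algebraMap K F c, hc c h₀⟩ * h : 𝒪) : F) = 1 + algebraMap K F c * (h : F) := rfl
    refine ⟨by rw [hPev]; exact h1, ?_⟩
    have e2 : (⟨P.eval (algebraMap K F₀ c), by rw [hPev]; exact h1⟩ : R.O) =
        ⟨Algebra.norm F₀ ((1 + ⟨algebraMap K F c, hc c h₀⟩ * h : 𝒪) : F), h1⟩ :=
      Subtype.ext (hPev c)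
    rw [e2, h2, map_add, map_add, map_one, map_one, map_mul, map_mul, hρ, hψ]
  -- interpolation nodes
  obtain ⟨s, hs⟩ := Infinite.exists_subset_card_eq k (Fintype.card (Fin (Module.finrank F₀ F)) + 1)
  choose cc hcc hcr using R.exists_const
  have hlift : P ∈ lifts R.O.toSubring.subtype := by
    refine TraceAux.mem_lifts_of_eval R.O.toSubring P s (fun a => algebraMap K F₀ (cc a)) ?_
      (fun a _ => hcc a) ?_ ?_ (fun a _ => (hPint (cc a) (hcc a)).1)
    · rw [hs]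
      refine lt_of_le_of_lt degree_le_natDegree ?_
      exact_mod_cast Nat.lt_succ_of_le (TraceAux.natDegree_detPoly_le M)
    · intro a _ a' _ hne
      have hmem : algebraMap K F₀ (cc a) - algebraMap K F₀ (cc a') ∈ R.O :=
        R.O.sub_mem (hcc a) (hcc a')
      have hred : R.red ⟨_, hmem⟩ ≠ 0 := by
        have : (⟨_, hmem⟩ : R.O) = ⟨_, hcc a⟩ - ⟨_, hcc a'⟩ := rfl
        rw [this, map_sub, hcr, hcr, ← map_sub]
        exact (map_ne_zero_iff _ (algebraMap k Fb).injective).2 (sub_ne_zero.2 hne)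
      exact R.inv_mem_of_red_ne_zero hred
    · intro a _ a' _ e
      by_contra hne
      have h1 : (⟨_, hcc a⟩ : R.O) = ⟨_, hcc a'⟩ := Subtype.ext e
      have h2 := congrArg R.red h1
      rw [hcr, hcr] at h2
      exact hne ((algebraMap k Fb).injective h2)
  obtain ⟨Ph, hPh⟩ := hlift
  have hPh' : Ph.map R.O.toSubring.subtype = P := hPh
  have hev : ∀ y : R.O, ((Ph.eval y : R.O) : F₀) = P.eval (y : F₀) := by
    intro y
    rw [← hPh', eval_map]
    exact (hom_eval₂ Ph (RingHom.id _) R.O.toSubring.subtype y).trans (by simp)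
  set Pb := Ph.map R.red with hPb
  have hPbeq : Pb = (1 + X * C (ρ h)) * (1 + X ^ p * C (ψ h)) := by
    refine eq_of_infinite_eval_eq _ _ (Set.Infinite.mono ?_
      (Set.infinite_range_of_injective (algebraMap k Fb).injective))
    rintro _ ⟨a, rfl⟩
    show Pb.eval _ = _
    obtain ⟨h1, h2⟩ := hPint (cc a) (hcc a)
    rw [← hcr a, hPb, eval_map_apply]
    have e3 : Ph.eval (⟨_, hcc a⟩ : R.O) = ⟨_, h1⟩ := Subtype.ext (hev _)
    rw [e3, h2]
    simp only [eval_mul, eval_add, eval_one, eval_X, eval_C, eval_pow]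
  refine ⟨(divX Ph).eval ⟨_, hε⟩, ?_, ?_⟩
  · rw [← hPev, ← hev ⟨_, hε⟩]
    have h0 : Ph.coeff 0 = 1 := by
      apply Subtype.ext
      have h1 := hev 0
      rw [← coeff_zero_eq_eval_zero] at h1
      rw [h1]
      show P.eval 0 = 1
      rw [hPdef, TraceAux.eval_detPoly]
      simp
    conv_lhs => rw [← divX_mul_X_add Ph, h0]
    simp only [eval_add, eval_mul, eval_X, eval_C]
    show (((divX Ph).eval (⟨_, hε⟩ : R.O) : R.O) : F₀) * algebraMap K F₀ ε + 1 = _
    ring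
  · rw [← eval_map_apply, hε0, ← coeff_zero_eq_eval_zero, coeff_map, coeff_divX, ← coeff_map,
      ← hPb, hPbeq]
    exact TraceAux.coeff_one_aux _ _ hp

end Fermat.Agent.NP
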