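import Fermat.Agent.NP.Root
import Fermat.Agent.NP.Trace

/-!
# NP : the norm lemma (abstract form) = NP-TRACE + NP-ROOT

If `N_{F/F₀} f` is a `p`-th power and `f u ^ p = δ + e z`, `|δ| = 1`, `|e| < 1`, `|p|^p < |e|^(p-1)`, then `ρ z` is a `p`-th power.
-/

set_option autoImplicit false
set_option linter.unusedSectionVars false

namespace Fermat.Agent.NP

open Fermat.Agent.RED

theorem exists_pow_of_norm {K F₀ F k Fb : Type*} [Field K] [Field F₀] [Field F] [Algebra K F₀]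
    [Algebra K F] [Algebra F₀ F] [IsScalarTower K F₀ F] [Module.Finite F₀ F] [Field k] [Field Fb]
    [Algebra k Fb] [IsAlgClosed K] [IsAlgClosed k] (R : RedData K F₀ k Fb) (A : ValuationSubring K)
    (hA : ∀ c : K, algebraMap K F₀ c ∈ R.O ↔ c ∈ A) (𝒪 : Subring F) (ρ ψ : 𝒪 →+* Fb) {p : ℕ}
    (hp : p.Prime) [CharP k p]
    (hc : ∀ c : K, algebraMap K F₀ c ∈ R.O → algebraMap K F c ∈ 𝒪)
    (hρ : ∀ (c : K) (h₀ : algebraMap K F₀ c ∈ R.O), ρ ⟨algebraMap K F c, hc c h₀⟩ = R.red ⟨_, h₀⟩)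
    (hψ : ∀ (c : K) (h₀ : algebraMap K F₀ c ∈ R.O),
      ψ ⟨algebraMap K F c, hc c h₀⟩ = R.red ⟨_, h₀⟩ ^ p)
    (hN : ∀ u : 𝒪, ∃ h : Algebra.norm F₀ (u : F) ∈ R.O, R.red ⟨_, h⟩ = ρ u * ψ u)
    {f : F} {h₀ : F₀} (hf : Algebra.norm F₀ f = h₀ ^ p) (u : F) (δ e : K) (z : 𝒪)
    (hδ : A.valuation δ = 1) (he : A.valuation e < 1)
    (hthr : A.valuation (p : K) ^ p < A.valuation e ^ (p - 1))
    (heq : f * u ^ p = algebraMap K F δ + algebraMap K F e * (z : F)) : ∃ v : Fb, ρ z = v ^ p := by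
  have hp1 : p - 1 ≠ 0 := by have := hp.two_le; omega
  have hδ0 : δ ≠ 0 := by
    rintro rfl
    rw [map_zero] at hδ
    exact zero_ne_one hδ
  have he0 : e ≠ 0 := by
    rintro rfl
    rw [map_zero, zero_pow hp1] at hthr
    exact not_lt_zero hthr
  set ε : K := e / δ with hε
  have hε0 : ε ≠ 0 := div_ne_zero he0 hδ0
  have hvε : A.valuation ε = A.valuation e := by rw [hε, map_div₀, hδ, div_one]
  have hεO : algebraMap K F₀ ε ∈ R.O := by
    rw [hA, ← A.valuation_le_one_iff, hvε]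
    exact he.le
  have hεred : R.red ⟨_, hεO⟩ = 0 := by
    by_contra hne
    have h1 := R.inv_mem_of_red_ne_zero hne
    have h2 : algebraMap K F₀ ε⁻¹ ∈ R.O := by rw [map_inv₀]; exact h1
    rw [hA, ← A.valuation_le_one_iff, map_inv₀, hvε] at h2
    have h3 : A.valuation e ≠ 0 := (A.valuation.ne_zero_iff).2 he0
    have h4 : 1 ≤ A.valuation e := (inv_le_one₀ (zero_lt_iff.2 h3)).1 h2
    exact absurd he (not_lt.2 h4)
  have : Infinite k := IsAlgClosed.instInfinite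
  obtain ⟨θ, hθ, hθred⟩ := exists_theta R 𝒪 ρ ψ hp.two_le hc hρ hψ hN z ε hεO hεred
  obtain ⟨γ, hγ⟩ := IsAlgClosed.exists_pow_nat_eq (δ ^ Module.finrank F₀ F) hp.pos
  have hγ0 : γ ≠ 0 := by
    rintro rfl
    rw [zero_pow hp.ne_zero] at hγ
    exact pow_ne_zero _ hδ0 hγ.symm
  have hγF : algebraMap K F₀ γ ≠ 0 := by rwa [Ne, map_eq_zero]
  have e1 : algebraMap K F δ + algebraMap K F e * (z : F) =
      algebraMap F₀ F (algebraMap K F₀ δ) * (1 + algebraMap K F ε * (z : F)) := by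
    rw [← IsScalarTower.algebraMap_apply, mul_add, mul_one, ← mul_assoc, ← map_mul, hε,
      mul_div_cancel₀ _ hδ0]
  have e2 := congrArg (Algebra.norm F₀) heq
  have e3 : algebraMap K F₀ δ ^ Module.finrank F₀ F = algebraMap K F₀ γ ^ p := by
    rw [← map_pow, ← map_pow, hγ]
  rw [map_mul, map_pow (Algebra.norm F₀) u, hf, e1, map_mul, Algebra.norm_algebraMap, hθ, e3,
    ← mul_pow] at e2
  have ht : (h₀ * Algebra.norm F₀ u / algebraMap K F₀ γ) ^ p =
      1 + algebraMap K F₀ ε * (θ : F₀) := by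
    rw [div_pow, e2, mul_div_assoc, mul_comm, div_mul_cancel₀ _ (pow_ne_zero _ hγF)]
  obtain ⟨w, hw⟩ := exists_pow_eq_red R A hA hp hε0 (by rw [hvε]; exact he)
    (by rw [hvε]; exact hthr) ht
  exact ⟨w, by rw [← hθred, hw]⟩

end Fermat.Agent.NP
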