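import Fermat.Agent.NP.Pow
import Fermat.Agent.NP.Glue

/-!
# NP : "`p`-new" excludes the depths `|c| > |λ|`
-/

set_option autoImplicit false
set_option linter.unusedSectionVars false

open AlgebraicCurve

namespace Fermat.Agent.NP

open Fermat.Agent.RED Fermat.Agent.S24 Fermat.Agent.SS

variable {K F k Fb : Type*} [Field K] [Field F] [Algebra K F] [Field k] [Field Fb] [Algebra k Fb]
  [IsAlgClosed K] [IsAlgClosed k] {x : F} {t : Fb}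
variable {T : TwoRed K F k Fb} {𝒩 : NodalData T}

theorem Cech.triv_of_gt (hx : IsSepParam K x) (hb : IsSepParam k t) {p : ℕ} (hp : p.Prime) [CharP k p]
    {D : Divisor K F} {f : T.O} (h : IsOne T p D f) (hNL : NLHyp T p (f : F)) {c : K} (hc : c ≠ 0)
    (hc1 : T.A.valuation c < 1) {w : Fb × Fb}
    (hgt : T.A.valuation (p : K) < T.A.valuation c ^ (p - 1)) (hC : Cech 𝒩 D c w) : Triv 𝒩 w := by
  obtain ⟨a, b, u₁, u₂, δ, z₁, z₂, hu₁, hu₂, hδ, hz₁, hz₂, e₁, e₂, hw⟩ :=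
    hC.exists_of_gt hx hb hp h hc hc1 hgt
  have hlt : T.A.valuation (c ^ p) < 1 := by
    rw [map_pow]
    exact pow_lt_one₀ zero_le' hc1 hp.ne_zero
  have hthr : T.A.valuation (p : K) ^ p < T.A.valuation (c ^ p) ^ (p - 1) := by
    rw [map_pow, ← pow_mul, mul_comm, pow_mul]
    exact pow_lt_pow_left₀ hgt zero_le' hp.ne_zero
  obtain ⟨r₁, r₂⟩ := hNL u₁ δ (c ^ p) z₁ hu₁ hδ hlt hthr e₁
  obtain ⟨s₁, s₂⟩ := hNL u₂ δ (c ^ p) z₂ hu₂ hδ hlt hthr e₂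
  obtain ⟨β₁, hβ₁, eβ₁⟩ := exists_pow_eq_of_mem_M 𝒩 hb hp (red_mem_M 𝒩 hz₁) r₁ r₂
  obtain ⟨β₂, hβ₂, eβ₂⟩ := exists_pow_eq_of_mem_M 𝒩 hb hp (red_mem_M 𝒩 hz₂) s₁ s₂
  exact triv_of_pow_eq 𝒩 hp hβ₁ hβ₂ (by rw [hw, eβ₁, eβ₂])

end Fermat.Agent.NP
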