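import Fermat.Agent.NP.Sat
import Fermat.Agent.NP.Binom

/-!
# NP : the `p`-th power of a Cech datum   (WPs **NP-POW-LT**, **NP-POW-GT**)

`IsOne T p D f`, `Cech 𝒩 D c w` with data `(a, b, u₁, u₂, n)`, `c ≠ 0`, `|c| < 1`.   `φ_i := f u_i ^ p`.  Then
`φ₁ ∈ L(X (p a) 0) ∩ O`, `φ₂ ∈ L(X 0 (p b)) ∩ O` (as `key` in `NodalData.W_subset`; `𝒩.wsX_mul`), `red φ_i = 1`.
By `exists_add_pow_prime` IN THE RING `T.O` with `x = u₂`, `y = cst c * n` :
  `φ₁ - φ₂ = f (p c u₂^(p-1) n + p c² n² r + c^p n^p)`,  `r : T.O`.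

**`Cech.triv_of_lt`** (torsion bound).  If `|c|^(p-1) < |p|` then `Triv 𝒩 w`.
  `φ₁ - φ₂ = (p c) Z`,  `Z = f (u₂^(p-1) n + c n² r + (c^(p-1)/p) n^p) ∈ O`,  `red Z = w` (`red_eq_zero_of_lt`).
  `Z = φ₁/(p c) + (- φ₂/(p c))`, so `triv_of_eq` with `P = Q = 1` (or `exists_add_of_eq_one`) applies.

**`Cech.exists_of_gt`.**  If `|p| < |c|^(p-1)` then `φ₁ - φ₂ = c^p Z`, `Z = f (n^p + (p/c^(p-1)) (u₂^(p-1) n + c n² r))`, `red Z = w ^ p`.
  `exists_add_of_eq_one` : `Z = z₁ + z₂'`, `z₁ ∈ L(X (p a) 0) ∩ O`, `z₂' ∈ L(X 0 (p b)) ∩ O`.  Then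
  `φ₁ - c^p z₁ = φ₂ + c^p z₂'` lies in `L(X (p a) 0) ∩ L(X 0 (p b)) = L(0) = K` (`𝒩.mem_L_of_mem_of_mem` with `D = 0`, `hx.L_zero`,
  `Submodule.mem_one`) : it is a constant `δ`, `δ ∈ O`, `red δ = red φ₁ = 1`, so `|δ| = 1` (`valuation_eq_one_of_isRes`).
  `z₂ := - z₂'`.
-/

set_option autoImplicit false
set_option linter.unusedSectionVars false

open AlgebraicCurve

namespace Fermat.Agent.NP

open Fermat.Agent.RED Fermat.Agent.S24 Fermat.Agent.SS

variable {K F k Fb : Type*} [Field K] [Field F] [Algebra K F] [Field k] [Field Fb] [Algebra k Fb]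
  [IsAlgClosed K] [IsAlgClosed k] {x : F} {t : Fb}
variable {T : TwoRed K F k Fb} {𝒩 : NodalData T}

omit [IsAlgClosed K] [IsAlgClosed k] in
/-- `f u ^ m ∈ L(m X)` for `u ∈ L(D + X)` (as `key` in `NodalData.W_subset`) -/
theorem mul_pow_mem_L {m : ℕ} (hm : m ≠ 0) {D : Divisor K F} {f : T.O} (h : IsOne T m D f)
    {a b : ℕ} {u : T.O} (hu : (u : F) ∈ riemannRochSpace (D + 𝒩.X a b)) :
    ((f * u ^ m : T.O) : F) ∈ riemannRochSpace (𝒩.X (m * a) (m * b)) := by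
  have hf0 : (f : F) ≠ 0 := by
    intro h0
    have : f = 0 := Subtype.ext h0
    have h1 := h.red
    rw [this, map_zero] at h1
    exact zero_ne_one h1
  have hX : 𝒩.X (m * a) (m * b) = m • 𝒩.X a b := by
    simp only [NodalData.X, mul_nsmul', nsmul_add]
  rw [hX]
  have hcast : ((f * u ^ m : T.O) : F) = (f : F) * (u : F) ^ m := rfl
  rcases eq_or_ne (u : F) 0 with h0 | h0
  · rw [hcast, h0, zero_pow hm, mul_zero]; exact Submodule.zero_mem _
  · have hne : (f : F) * (u : F) ^ m ≠ 0 := mul_ne_zero hf0 (pow_ne_zero _ h0)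
    rw [hcast, mem_L_iff_of_ne_zero hne]
    intro v
    have h1 := (mem_L_iff_of_ne_zero h0).1 hu v
    rw [v.ord_mul hf0 (pow_ne_zero _ h0), Place.ord_pow, ← h.ord v, Finsupp.smul_apply,
      nsmul_eq_mul]
    rw [Finsupp.add_apply] at h1
    have hm' : (0 : ℤ) ≤ m := by positivity
    nlinarith [mul_nonneg hm' h1]

omit [IsAlgClosed K] [IsAlgClosed k] in
/-- the common part of the two theorems -/
theorem Cech.pow_aux {p : ℕ} (hp : p.Prime) {D : Divisor K F} {f : T.O} (h : IsOne T p D f)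
    {c : K} {w : Fb × Fb} (hC : Cech 𝒩 D c w) :
    ∃ (a b : ℕ) (u₁ u₂ n r : T.O),
      ((f * u₁ ^ p : T.O) : F) ∈ riemannRochSpace (𝒩.X a 0) ∧
      ((f * u₂ ^ p : T.O) : F) ∈ riemannRochSpace (𝒩.X 0 b) ∧
      T.red u₁ = 1 ∧ T.red u₂ = 1 ∧ T.red n = w ∧
      (u₁ : F) ^ p = (u₂ : F) ^ p + (p : F) * (u₂ : F) ^ (p - 1) * (algebraMap K F c * (n : F)) +
        (p : F) * (algebraMap K F c * (n : F)) ^ 2 * (r : F) + (algebraMap K F c * (n : F)) ^ p := by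
  obtain ⟨a, b, u₁, u₂, n, hu₁, hu₂, hr₁, hr₂, hd, hn⟩ := hC
  have hy : algebraMap K F c * (n : F) ∈ T.O := by
    rw [← hd]; exact T.O.sub_mem u₁.2 u₂.2
  obtain ⟨r, hr⟩ := exists_add_pow_prime hp u₂ (⟨_, hy⟩ : T.O)
  have e : u₁ = u₂ + ⟨_, hy⟩ := Subtype.ext (by
    show (u₁ : F) = (u₂ : F) + algebraMap K F c * (n : F)
    rw [← hd]; ring)
  have hL₁ : ((f * u₁ ^ p : T.O) : F) ∈ riemannRochSpace (𝒩.X (p * a) 0) := by
    have := mul_pow_mem_L hp.ne_zero h hu₁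
    rwa [mul_zero] at this
  have hL₂ : ((f * u₂ ^ p : T.O) : F) ∈ riemannRochSpace (𝒩.X 0 (p * b)) := by
    have := mul_pow_mem_L hp.ne_zero h hu₂
    rwa [mul_zero] at this
  refine ⟨p * a, p * b, u₁, u₂, n, r, hL₁, hL₂, hr₁, hr₂, hn, ?_⟩
  rw [← e] at hr
  have h2 := congrArg (Subtype.val) hr
  have c0 : (((p : ℕ) : T.O) : F) = (p : F) := by
    simp
  rw [← c0]
  exact h2

theorem Cech.triv_of_lt (hx : IsSepParam K x) (hb : IsSepParam k t) {p : ℕ} (hp : p.Prime) [CharP k p]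
    {D : Divisor K F} {f : T.O} (h : IsOne T p D f) {c : K} (hc : c ≠ 0) {w : Fb × Fb}
    (hlt : T.A.valuation c ^ (p - 1) < T.A.valuation (p : K)) (hC : Cech 𝒩 D c w) : Triv 𝒩 w := by
  obtain ⟨a, b, u₁, u₂, n, r, hL₁, hL₂, hr₁, hr₂, hn, hpow⟩ := hC.pow_aux hp h
  have hp0 : (p : K) ≠ 0 := (Valuation.ne_zero_iff _).1 (zero_le.trans_lt hlt).ne'
  have hp1 : T.A.valuation (p : K) < 1 := valuation_natCast_lt_one p
  have hc1 : T.A.valuation c < 1 := by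
    by_contra hcon
    rw [not_lt] at hcon
    exact absurd (lt_of_le_of_lt (one_le_pow₀ hcon) hlt) (not_lt.2 hp1.le)
  set e : K := c ^ (p - 1) / (p : K) with he
  have he1 : T.A.valuation e < 1 := by
    rw [he, map_div₀, map_pow]
    exact (div_lt_one₀ (zero_le.trans_lt hlt)).2 hlt
  have hcA : c ∈ T.A := mem_A_iff.2 hc1.le
  have heA : e ∈ T.A := mem_A_iff.2 he1.le
  set Z : T.O := f * (u₂ ^ (p - 1) * n + cst T c hcA * (n ^ 2 * r) + cst T e heA * n ^ p) with hZ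
  have hredZ : T.red Z = w := by
    rw [hZ, map_mul, map_add, map_add, h.red, one_mul, map_mul, map_pow, hr₂, one_pow, one_mul, hn,
      red_eq_zero_of_lt hc1 (n ^ 2 * r) (cst T c hcA * (n ^ 2 * r)) rfl,
      red_eq_zero_of_lt he1 (n ^ p) (cst T e heA * n ^ p) rfl, add_zero, add_zero]
  set g : K := (p : K) * c with hg
  have hg0 : g ≠ 0 := mul_ne_zero hp0 hc
  have hE : algebraMap K F c ^ p = (p : F) * algebraMap K F c * algebraMap K F e := by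
    have h1 : c ^ p = (p : K) * c * e := by
      rw [he]
      have : c ^ p = c * c ^ (p - 1) := by
        rw [← pow_succ', Nat.sub_add_cancel hp.one_le]
      rw [this]
      field_simp
    have h2 := congrArg (algebraMap K F) h1
    rwa [map_pow, map_mul, map_mul, map_natCast] at h2
  have hdiff : ((f * u₁ ^ p : T.O) : F) - ((f * u₂ ^ p : T.O) : F) = algebraMap K F g * (Z : F) := by
    have c1 : ((f * u₁ ^ p : T.O) : F) = (f : F) * (u₁ : F) ^ p := rfl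
    have c2 : ((f * u₂ ^ p : T.O) : F) = (f : F) * (u₂ : F) ^ p := rfl
    have c3 : (Z : F) = (f : F) * ((u₂ : F) ^ (p - 1) * (n : F) +
        algebraMap K F c * ((n : F) ^ 2 * (r : F)) + algebraMap K F e * (n : F) ^ p) := rfl
    rw [c1, c2, c3, hpow, mul_pow (algebraMap K F c) (n : F) p, hg, map_mul, map_natCast]
    linear_combination ((f : F) * (n : F) ^ p) * hE
  have hZe : (Z : F) = g⁻¹ • ((f * u₁ ^ p : T.O) : F) + g⁻¹ • (-((f * u₂ ^ p : T.O) : F)) := by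
    rw [← smul_add, ← sub_eq_add_neg, hdiff, Algebra.smul_def, ← mul_assoc, ← map_mul,
      inv_mul_cancel₀ hg0, map_one, one_mul]
  obtain ⟨z₁, z₂, hz₁, hz₂, hzz⟩ := exists_add_of_eq_one 𝒩 hx hb a b
    (Submodule.smul_mem _ g⁻¹ hL₁) (Submodule.smul_mem _ g⁻¹ (Submodule.neg_mem _ hL₂)) Z hZe
  rw [← hredZ, hzz, map_add]
  exact (triv_of_mem_left (red_mem_M 𝒩 hz₁)).add (triv_of_mem_right (red_mem_M 𝒩 hz₂))

theorem Cech.exists_of_gt (hx : IsSepParam K x) (hb : IsSepParam k t) {p : ℕ} (hp : p.Prime) [CharP k p]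
    {D : Divisor K F} {f : T.O} (h : IsOne T p D f) {c : K} (hc : c ≠ 0)
    (hc1 : T.A.valuation c < 1) {w : Fb × Fb}
    (hgt : T.A.valuation (p : K) < T.A.valuation c ^ (p - 1)) (hC : Cech 𝒩 D c w) :
    ∃ (a b : ℕ) (u₁ u₂ : F) (δ : K) (z₁ z₂ : T.O), u₁ ≠ 0 ∧ u₂ ≠ 0 ∧ T.A.valuation δ = 1 ∧
      (z₁ : F) ∈ riemannRochSpace (𝒩.X a 0) ∧ (z₂ : F) ∈ riemannRochSpace (𝒩.X 0 b) ∧
      (f : F) * u₁ ^ p = algebraMap K F δ + algebraMap K F (c ^ p) * (z₁ : F) ∧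
      (f : F) * u₂ ^ p = algebraMap K F δ + algebraMap K F (c ^ p) * (z₂ : F) ∧
      w ^ p = T.red z₁ - T.red z₂ := by
  obtain ⟨a, b, u₁, u₂, n, r, hL₁, hL₂, hr₁, hr₂, hn, hpow⟩ := hC.pow_aux hp h
  have hcp0 : c ^ (p - 1) ≠ 0 := pow_ne_zero _ hc
  set e : K := (p : K) / c ^ (p - 1) with he
  have he1 : T.A.valuation e < 1 := by
    rw [he, map_div₀, map_pow]
    exact (div_lt_one₀ (zero_le.trans_lt hgt)).2 hgt
  have hcA : c ∈ T.A := mem_A_iff.2 hc1.le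
  have heA : e ∈ T.A := mem_A_iff.2 he1.le
  set Z : T.O := f * (n ^ p + cst T e heA * (u₂ ^ (p - 1) * n + cst T c hcA * (n ^ 2 * r))) with hZ
  have hredZ : T.red Z = w ^ p := by
    rw [hZ, map_mul, map_add, h.red, one_mul, map_pow, hn,
      red_eq_zero_of_lt he1 (u₂ ^ (p - 1) * n + cst T c hcA * (n ^ 2 * r))
        (cst T e heA * (u₂ ^ (p - 1) * n + cst T c hcA * (n ^ 2 * r))) rfl, add_zero]
  set g : K := c ^ p with hg
  have hg0 : g ≠ 0 := pow_ne_zero _ hc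
  have hg1 : T.A.valuation g < 1 := by
    rw [hg, map_pow]
    exact pow_lt_one₀ zero_le hc1 hp.ne_zero
  have hgA : g ∈ T.A := mem_A_iff.2 hg1.le
  have hE : algebraMap K F c ^ p * algebraMap K F e = (p : F) * algebraMap K F c := by
    have h1 : c ^ p * e = (p : K) * c := by
      rw [he]
      have : c ^ p = c * c ^ (p - 1) := by
        rw [← pow_succ', Nat.sub_add_cancel hp.one_le]
      rw [this]
      field_simp
    have h2 := congrArg (algebraMap K F) h1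
    rwa [map_mul, map_pow, map_mul, map_natCast] at h2
  have c1 : ((f * u₁ ^ p : T.O) : F) = (f : F) * (u₁ : F) ^ p := rfl
  have c2 : ((f * u₂ ^ p : T.O) : F) = (f : F) * (u₂ : F) ^ p := rfl
  have hdiff : ((f * u₁ ^ p : T.O) : F) - ((f * u₂ ^ p : T.O) : F) = algebraMap K F g * (Z : F) := by
    have c3 : (Z : F) = (f : F) * ((n : F) ^ p + algebraMap K F e * ((u₂ : F) ^ (p - 1) * (n : F) +
        algebraMap K F c * ((n : F) ^ 2 * (r : F)))) := rfl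
    rw [c1, c2, c3, hpow, mul_pow (algebraMap K F c) (n : F) p, hg, map_pow]
    linear_combination (-(f : F) * ((u₂ : F) ^ (p - 1) * (n : F) +
        algebraMap K F c * ((n : F) ^ 2 * (r : F)))) * hE
  have hZe : (Z : F) = g⁻¹ • ((f * u₁ ^ p : T.O) : F) + g⁻¹ • (-((f * u₂ ^ p : T.O) : F)) := by
    rw [← smul_add, ← sub_eq_add_neg, hdiff, Algebra.smul_def, ← mul_assoc, ← map_mul,
      inv_mul_cancel₀ hg0, map_one, one_mul]
  obtain ⟨z₁, z₂, hz₁, hz₂, hzz⟩ := exists_add_of_eq_one 𝒩 hx hb a b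
    (Submodule.smul_mem _ g⁻¹ hL₁) (Submodule.smul_mem _ g⁻¹ (Submodule.neg_mem _ hL₂)) Z hZe
  have hzz' : (Z : F) = (z₁ : F) + (z₂ : F) := congrArg Subtype.val hzz
  -- the constant
  set E : T.O := f * u₁ ^ p - cst T g hgA * z₁ with hEdef
  have hE1 : (E : F) = ((f * u₁ ^ p : T.O) : F) - algebraMap K F g * (z₁ : F) := rfl
  have hE2 : (E : F) = ((f * u₂ ^ p : T.O) : F) + algebraMap K F g * (z₂ : F) := by
    rw [hE1]
    have := hdiff
    rw [hzz'] at this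
    linear_combination this
  have hEL₁ : (E : F) ∈ riemannRochSpace (0 + 𝒩.X a 0) := by
    rw [zero_add, hE1, ← Algebra.smul_def]
    exact Submodule.sub_mem _ hL₁ (Submodule.smul_mem _ g hz₁)
  have hEL₂ : (E : F) ∈ riemannRochSpace (0 + 𝒩.X 0 b) := by
    rw [zero_add, hE2, ← Algebra.smul_def]
    exact Submodule.add_mem _ hL₂ (Submodule.smul_mem _ g hz₂)
  have hE0 := 𝒩.mem_L_of_mem_of_mem hEL₁ hEL₂
  rw [hx.L_zero, Submodule.mem_one] at hE0
  obtain ⟨δ, hδ⟩ := hE0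
  have hδA : δ ∈ T.A := mem_A_of_algebraMap_mem_O (by rw [hδ]; exact E.2)
  have hredE : T.red E = 1 := by
    rw [hEdef, map_sub, map_mul, map_pow, h.red, hr₁, one_pow, one_mul,
      red_eq_zero_of_lt hg1 z₁ (cst T g hgA * z₁) rfl, sub_zero]
  have hres : IsRes T δ 1 := by
    refine ⟨hδA, ?_⟩
    have : cst T δ hδA = E := Subtype.ext hδ
    rw [this, hredE, map_one]
    rfl
  refine ⟨a, b, u₁, u₂, δ, z₁, -z₂, ne_zero_of_red_eq_one hr₁, ne_zero_of_red_eq_one hr₂,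
    valuation_eq_one_of_isRes hres one_ne_zero, hz₁, Submodule.neg_mem _ hz₂, ?_, ?_, ?_⟩
  · rw [hδ, hE1, c1]; ring
  · rw [hδ, hE2, c2]
    show _ = _ + _ * (-(z₂ : F))
    ring
  · rw [← hredZ, hzz, map_add, map_neg, sub_neg_eq_add]

end Fermat.Agent.NP
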