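import Fermat.Agent.RED.Deuring.Basic
import Fermat.Agent.NP.Binom

/-!
# NP : `t ^ p = 1 + ε θ`, `|ε| > |λ|^p`  ⟹  `red θ` is a `p`-th power   (WP **NP-ROOT**)

`R : RedData K F₀ k Fb` (one Gauss valuation), `A` = its valuation ring of constants, `char k = p`, `k` algebraically closed.

PROOF.  `s := t - 1`.  If `s = 0` then `θ = 0`.  Otherwise `R.exists_scale` : `s = c v`, `c ∈ Kˣ`, `v ∈ O`, `red v ≠ 0`.
`t ∈ O` because `t ^ p ∈ O` (valuation rings are integrally closed: `SS.mem_valSubring_of_pow_mem`, or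
`ValuationSubring.mem_of_...`/ `Valuation.map_pow` + `pow_le_one_iff`), `(red t) ^ p = 1 + 0`, so `red t = 1` (`frobenius_inj`; `Fb` has
characteristic `p`), `red s = 0`, hence `|c| < 1` (if `c⁻¹ ∈ A` then `v = c⁻¹ s` would have reduction `0`).
`exists_add_pow_prime` in `R.O` with `x = 1`, `y = c v` :  `ε θ = p c v + p c² v² r + c^p v^p`.
 (a) `|p| < |c|^(p-1)` : `ε θ = c^p V`, `V = v^p + (p/c^(p-1)) (v + c v² r)`, `red V = (red v)^p ≠ 0`, so `V` is a unit of `O` and
     `c^p/ε = θ V⁻¹ ∈ O ∩ K = A`; `red θ = κ (red v)^p`, `κ` = residue of `c^p/ε`, `κ = κ₀^p` (`IsAlgClosed.exists_pow_nat_eq`).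
 (b) `|c|^(p-1) ≤ |p|` : `ε θ = (p c) V'`, `V' = v + c v² r + (c^(p-1)/p) v^p ∈ O`; `|p c|^(p-1) = |p|^(p-1) |c|^(p-1) ≤ |p|^p < |ε|^(p-1)`, so
     `|p c / ε| < 1` and `red θ = 0 = 0 ^ p`.
-/

set_option autoImplicit false
set_option linter.unusedSectionVars false

namespace Fermat.Agent.NP

open Fermat.Agent.RED

namespace RootAux

variable {K F₀ k Fb : Type*} [Field K] [Field F₀] [Algebra K F₀] [Field k] [Field Fb]
    [Algebra k Fb] (R : RedData K F₀ k Fb) (A : ValuationSubring K)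
    (hA : ∀ c : K, algebraMap K F₀ c ∈ R.O ↔ c ∈ A)

include hA in
theorem red_eq_zero_of_val_lt {c : K} (hc : A.valuation c < 1) :
    ∃ h : algebraMap K F₀ c ∈ R.O, R.red ⟨_, h⟩ = 0 := by
  have h : algebraMap K F₀ c ∈ R.O := (hA c).2 ((A.valuation_le_one_iff c).1 hc.le)
  refine ⟨h, ?_⟩
  by_contra hne
  have h1 := R.inv_mem_of_red_ne_zero hne
  have h2 : algebraMap K F₀ c⁻¹ ∈ R.O := by rw [map_inv₀]; exact h1
  have h3 : A.valuation c⁻¹ ≤ 1 := (A.valuation_le_one_iff _).2 ((hA _).1 h2)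
  rcases eq_or_ne c 0 with rfl | hc0
  · apply hne
    have : (⟨algebraMap K F₀ 0, h⟩ : R.O) = 0 := Subtype.ext (map_zero _)
    rw [this, map_zero]
  · have h4 : A.valuation c * A.valuation c⁻¹ = 1 := by
      rw [← map_mul, mul_inv_cancel₀ hc0, map_one]
    have h5 : A.valuation c * A.valuation c⁻¹ < 1 :=
      lt_of_le_of_lt (mul_le_of_le_one_right' h3) hc
    rw [h4] at h5
    exact lt_irrefl _ h5

end RootAux

theorem exists_pow_eq_red {K F₀ k Fb : Type*} [Field K] [Field F₀] [Algebra K F₀] [Field k] [Field Fb]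
    [Algebra k Fb] [IsAlgClosed k] (R : RedData K F₀ k Fb) (A : ValuationSubring K)
    (hA : ∀ c : K, algebraMap K F₀ c ∈ R.O ↔ c ∈ A) {p : ℕ} (hp : p.Prime) [CharP k p]
    {t : F₀} {θ : R.O} {ε : K} (hε0 : ε ≠ 0) (hε : A.valuation ε < 1)
    (hgt : A.valuation (p : K) ^ p < A.valuation ε ^ (p - 1))
    (ht : t ^ p = 1 + algebraMap K F₀ ε * (θ : F₀)) : ∃ w : Fb, R.red θ = w ^ p := by
  have : Fact p.Prime := ⟨hp⟩
  have : CharP Fb p := charP_of_injective_algebraMap (algebraMap k Fb).injective p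
  have hεF : algebraMap K F₀ ε ≠ 0 := (map_ne_zero _).2 hε0
  obtain ⟨hεO, hεr⟩ := RootAux.red_eq_zero_of_val_lt R A hA hε
  rcases eq_or_ne (t - 1) 0 with hs | hs
  · -- `t = 1`
    refine ⟨0, ?_⟩
    have ht1 : t = 1 := sub_eq_zero.1 hs
    rw [ht1, one_pow] at ht
    have h0 : (θ : F₀) = 0 := by
      have : algebraMap K F₀ ε * (θ : F₀) = 0 := by linear_combination -ht
      exact (mul_eq_zero.1 this).resolve_left hεF
    have : θ = 0 := Subtype.ext h0
    rw [this, map_zero, zero_pow hp.ne_zero]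
  -- `t ∈ O`, `red t = 1`
  have htp : t ^ p ∈ R.O := by
    rw [ht]; exact R.O.add_mem _ _ R.O.one_mem (R.O.mul_mem _ _ hεO θ.2)
  have htO : t ∈ R.O := by
    rw [← R.O.valuation_le_one_iff] at htp ⊢
    rw [map_pow] at htp
    exact (pow_le_one_iff_of_nonneg zero_le hp.ne_zero).1 htp
  have hrt : R.red ⟨t, htO⟩ = 1 := by
    have h1 : (⟨t, htO⟩ : R.O) ^ p = 1 + ⟨_, hεO⟩ * θ := Subtype.ext ht
    have h2 := congrArg R.red h1
    rw [map_pow, map_add, map_one, map_mul, hεr, zero_mul, add_zero] at h2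
    apply frobenius_inj Fb p
    rw [frobenius_def, frobenius_def, h2, one_pow]
  -- scaling
  obtain ⟨c', hvO, hvr⟩ := R.exists_scale (t - 1) hs
  set v : R.O := ⟨algebraMap K F₀ c' * (t - 1), hvO⟩ with hv
  have hc'0 : c' ≠ 0 := by
    rintro rfl
    apply hvr
    have : v = 0 := Subtype.ext (by simp [hv])
    rw [this, map_zero]
  set c : K := c'⁻¹ with hcdef
  have hc0 : c ≠ 0 := inv_ne_zero hc'0
  have hcF : algebraMap K F₀ c ≠ 0 := (map_ne_zero _).2 hc0
  have hs_eq : t = 1 + algebraMap K F₀ c * (v : F₀) := by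
    have : algebraMap K F₀ c * algebraMap K F₀ c' = 1 := by
      rw [← map_mul, hcdef, inv_mul_cancel₀ hc'0, map_one]
    show t = 1 + algebraMap K F₀ c * (algebraMap K F₀ c' * (t - 1))
    rw [← mul_assoc, this]; ring
  have hclt : A.valuation c < 1 := by
    by_contra hcon
    have h1 : A.valuation c' ≤ 1 := by
      have h2 : A.valuation c * A.valuation c' = 1 := by
        rw [← map_mul, hcdef, inv_mul_cancel₀ hc'0, map_one]
      by_contra h3
      have h4 : 1 < A.valuation c * A.valuation c' :=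
        lt_of_lt_of_le (not_le.1 h3) (le_mul_of_one_le_left' (not_lt.1 hcon))
      rw [h2] at h4
      exact lt_irrefl _ h4
    have h5 : algebraMap K F₀ c' ∈ R.O := (hA _).2 ((A.valuation_le_one_iff _).1 h1)
    apply hvr
    have h6 : v = ⟨_, h5⟩ * (⟨t, htO⟩ - 1) := rfl
    rw [h6, map_mul, map_sub, hrt, map_one, sub_self, mul_zero]
  obtain ⟨hcO, hcr⟩ := RootAux.red_eq_zero_of_val_lt R A hA hclt
  set ch : R.O := ⟨_, hcO⟩ with hch
  obtain ⟨r, hr⟩ := exists_add_pow_prime hp (1 : R.O) (ch * v)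
  have hmain : algebraMap K F₀ ε * (θ : F₀) = (p : F₀) * (algebraMap K F₀ c * v)
      + (p : F₀) * (algebraMap K F₀ c * v) ^ 2 * (r : F₀) + (algebraMap K F₀ c * v) ^ p := by
    have h1 := congrArg (Subtype.val : R.O → F₀) hr
    have h2 : (1 + algebraMap K F₀ c * (v : F₀)) ^ p = 1 ^ p + (p : F₀) * 1 ^ (p - 1) *
        (algebraMap K F₀ c * v) + (p : F₀) * (algebraMap K F₀ c * v) ^ 2 * (r : F₀)
        + (algebraMap K F₀ c * v) ^ p := by
      simpa using h1
    rw [← hs_eq, ht, one_pow, one_pow] at h2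
    linear_combination h2
  have hpp : p = (p - 1) + 1 := (Nat.succ_pred_eq_of_pos hp.pos).symm
  have hcp0 : c ^ (p - 1) ≠ 0 := pow_ne_zero _ hc0
  rcases lt_or_ge (A.valuation (p : K)) (A.valuation c ^ (p - 1)) with hcase | hcase
  · -- case (a)
    have hμ : A.valuation ((p : K) / c ^ (p - 1)) < 1 := by
      rw [map_div₀, map_pow]
      exact (div_lt_one₀ (zero_lt_iff.2 (by
        rw [← map_pow]; exact (A.valuation.ne_zero_iff).2 hcp0))).2 hcase
    obtain ⟨hμO, hμr⟩ := RootAux.red_eq_zero_of_val_lt R A hA hμ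
    set V : R.O := v ^ p + ⟨_, hμO⟩ * (v + ch * v ^ 2 * r) with hV
    have hVr : R.red V = R.red v ^ p := by
      rw [hV, map_add, map_mul, hμr, zero_mul, add_zero, map_pow]
    have hVne : R.red V ≠ 0 := by rw [hVr]; exact pow_ne_zero _ hvr
    have hVF : (V : F₀) = (v : F₀) ^ p + algebraMap K F₀ ((p : K) / c ^ (p - 1)) *
        ((v : F₀) + algebraMap K F₀ c * (v : F₀) ^ 2 * (r : F₀)) := rfl
    have e1 : algebraMap K F₀ ε * (θ : F₀) = algebraMap K F₀ c ^ p * (V : F₀) := by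
      rw [hmain, hVF, map_div₀, map_pow, map_natCast]
      have hcpF : algebraMap K F₀ c ^ (p - 1) ≠ 0 := pow_ne_zero _ hcF
      have e2 : algebraMap K F₀ c ^ p = algebraMap K F₀ c ^ (p - 1) * algebraMap K F₀ c := by
        rw [← pow_succ, ← hpp]
      rw [e2]
      field_simp
      rw [mul_pow, e2]
      ring
    have hV0 : (V : F₀) ≠ 0 := by
      intro h0
      apply hVne
      have : V = 0 := Subtype.ext h0
      rw [this, map_zero]
    have e3 : algebraMap K F₀ (c ^ p / ε) = (θ : F₀) * (V : F₀)⁻¹ := by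
      rw [map_div₀, map_pow]
      field_simp
      rw [← e1]
    have hκO : algebraMap K F₀ (c ^ p / ε) ∈ R.O := by
      rw [e3]; exact R.O.mul_mem _ _ θ.2 (R.inv_mem_of_red_ne_zero hVne)
    obtain ⟨κ, hκ⟩ := R.red_const _ hκO
    obtain ⟨κ₀, hκ₀⟩ := IsAlgClosed.exists_pow_nat_eq κ hp.pos
    refine ⟨algebraMap k Fb κ₀ * R.red v, ?_⟩
    have e4 : θ = ⟨_, hκO⟩ * V := by
      apply Subtype.ext
      show (θ : F₀) = algebraMap K F₀ (c ^ p / ε) * (V : F₀)
      rw [e3, mul_assoc, inv_mul_cancel₀ hV0, mul_one]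
    rw [e4, map_mul, hκ, hVr, mul_pow, ← hκ₀, map_pow]
  · -- case (b)
    have hp0 : (p : K) ≠ 0 := by
      intro h0
      rw [h0, map_zero] at hcase
      have : A.valuation c ^ (p - 1) = 0 := le_antisymm hcase zero_le
      rw [← map_pow] at this
      exact hcp0 ((A.valuation.zero_iff).1 this)
    have hpF : (p : F₀) ≠ 0 := by
      have := (map_ne_zero (algebraMap K F₀)).2 hp0
      rwa [map_natCast] at this
    have hν : A.valuation (c ^ (p - 1) / (p : K)) ≤ 1 := by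
      rw [map_div₀, map_pow]
      exact (div_le_one₀ (zero_lt_iff.2 ((A.valuation.ne_zero_iff).2 hp0))).2 hcase
    have hνO : algebraMap K F₀ (c ^ (p - 1) / (p : K)) ∈ R.O :=
      (hA _).2 ((A.valuation_le_one_iff _).1 hν)
    have hη : A.valuation ((p : K) * c / ε) < 1 := by
      rw [map_div₀]
      refine (div_lt_one₀ (zero_lt_iff.2 ((A.valuation.ne_zero_iff).2 hε0))).2 ?_
      have h1 : A.valuation ((p : K) * c) ^ (p - 1) < A.valuation ε ^ (p - 1) := by
        refine lt_of_le_of_lt ?_ hgt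
        rw [map_mul, mul_pow]
        calc A.valuation (p : K) ^ (p - 1) * A.valuation c ^ (p - 1)
            ≤ A.valuation (p : K) ^ (p - 1) * A.valuation (p : K) := mul_le_mul_right hcase _
          _ = A.valuation (p : K) ^ p := by rw [← pow_succ, ← hpp]
      exact lt_of_pow_lt_pow_left₀ _ zero_le h1
    obtain ⟨hηO, hηr⟩ := RootAux.red_eq_zero_of_val_lt R A hA hη
    refine ⟨0, ?_⟩
    have e4 : θ = ⟨_, hηO⟩ * (v + ch * v ^ 2 * r + ⟨_, hνO⟩ * v ^ p) := by
      apply Subtype.ext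
      show (θ : F₀) = algebraMap K F₀ ((p : K) * c / ε) * ((v : F₀) + algebraMap K F₀ c *
        (v : F₀) ^ 2 * (r : F₀) + algebraMap K F₀ (c ^ (p - 1) / (p : K)) * (v : F₀) ^ p)
      have e5 : (θ : F₀) = (algebraMap K F₀ ε)⁻¹ * (algebraMap K F₀ ε * (θ : F₀)) := by
        rw [← mul_assoc, inv_mul_cancel₀ hεF, one_mul]
      rw [e5, hmain, map_div₀, map_div₀, map_mul, map_pow, map_natCast]
      have e2 : algebraMap K F₀ c ^ p = algebraMap K F₀ c ^ (p - 1) * algebraMap K F₀ c := by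
        rw [← pow_succ, ← hpp]
      rw [mul_pow _ _ p, e2]
      field_simp
    rw [e4, map_mul, hηr, zero_mul, zero_pow hp.ne_zero]

end Fermat.Agent.NP
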