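import Fermat.Agent.NP.Basic

/-!
# NP : saturation of `B₁ + B₂` in `B₁₂`   (WP **NP-SAT**)

`V₁ = L(a P)`, `V₂ = L(b P')`, `P ∈ V₁ ∩ O`, `Q ∈ V₂ ∩ O` with reduction `(1, 1)`.

**`exists_add_of_eq`.**  If `Z ∈ O` and `Z = Q y₁ + P y₂` with `y₁ ∈ V₁`, `y₂ ∈ V₂` (NOT assumed integral) then
`Z = Q z₁ + P z₂` with `z₁ ∈ V₁ ∩ O`, `z₂ ∈ V₂ ∩ O`.

PROOF (a dimension count, no bases).  `U₁ := Q V₁`, `U₂ := P V₂` (`Submodule.map` of `LinearMap.mulLeft K Q`),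
`U := U₁ ⊔ U₂`.  All are finite dimensional (`hx.finite_L`).
(1) `finrank U₁ = finrank V₁ =: f₁`, `finrank U₂ = f₂` (multiplication by a nonzero element is injective), and
    `0 ≠ P Q ∈ U₁ ⊓ U₂`, so `finrank U ≤ f₁ + f₂ - 1` (`Submodule.finrank_sup_add_finrank_inf_eq`).
(2) `T.redSub U₁ ≤ 𝒩.Msub 1 a 0` : if `Q y ∈ O`, `y ∈ V₁`, then `y = Q⁻¹ (Q y) ∈ O` (`inv_mem_O`), `red (Q y) = red y`
    and `red_mem_M`.  Same for `U₂`, `𝒩.Msub 1 0 b`.  Hence `redSub U₁ ⊓ redSub U₂ ≤ Msub 1 a 0 ⊓ Msub 1 0 b = Msub 1 0 0`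
    (`NodalData.M_inter`) `= LL 𝒩 0 0` (`ND.LL_X_eq_Msub`, `X₁ 0 0 = 0`) which has `finrank = 1`
    (`ND.finrank_LL_zero hb s₀`, `s₀` from `𝒩.nonempty_S hx hb`).
(3) `f_i ≤ finrank (redSub U_i)` (`𝒩.on2`).  So `finrank (redSub U₁ ⊔ redSub U₂) ≥ f₁ + f₂ - 1 ≥ finrank U ≥
    finrank (redSub U)` (`T.finrank_redSub_le`), and `redSub U₁ ⊔ redSub U₂ ≤ redSub U`: equality
    (`Submodule.eq_of_le_of_finrank_le`; finiteness from `T.finite_redSub`).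
(4) `T.exists_add_of_redSub_sup U U₁ U₂ le_sup_left le_sup_right (𝒩.on2 U _) (3) Z _` gives `Z = ũ₁ + ũ₂`,
    `ũ₁ = Q y₁' ∈ O`, `ũ₂ = P y₂' ∈ O`; `z₁ := y₁'`, `z₂ := y₂'` are integral as in (2).
-/

set_option autoImplicit false
set_option linter.unusedSectionVars false

open AlgebraicCurve

namespace Fermat.Agent.NP

open Fermat.Agent.RED Fermat.Agent.S24 Fermat.Agent.SS

variable {K F k Fb : Type*} [Field K] [Field F] [Algebra K F] [Field k] [Field Fb] [Algebra k Fb]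
  [IsAlgClosed K] [IsAlgClosed k] {x : F} {t : Fb}
variable {T : TwoRed K F k Fb} (𝒩 : NodalData T)

omit [IsAlgClosed K] [IsAlgClosed k] in
/-- if `Q y ∈ O` and `red Q = 1` then `y ∈ O` and `red (Q y) = red y` -/
theorem sat_div (Q : T.O) (hQ : T.red Q = 1) (u : T.O) {y : F} (hu : (u : F) = (Q : F) * y) :
    ∃ z : T.O, (z : F) = y ∧ u = Q * z ∧ T.red u = T.red z := by
  have hQ0 := ne_zero_of_red_eq_one hQ
  have hy : y = (Q : F)⁻¹ * (u : F) := by rw [hu, inv_mul_cancel_left₀ hQ0]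
  have hyO : y ∈ T.O := by rw [hy]; exact T.O.mul_mem (inv_mem_O hQ) u.2
  have h1 : u = Q * ⟨y, hyO⟩ := Subtype.ext hu
  exact ⟨⟨y, hyO⟩, rfl, h1, by rw [h1, map_mul, hQ, one_mul]⟩

omit [IsAlgClosed K] [IsAlgClosed k] in
theorem sat_redSub_mono {V V' : Submodule K F} (h : V ≤ V') : T.redSub V ≤ T.redSub V' := by
  rintro w ⟨u, hu, rfl⟩
  exact ⟨u, h hu, rfl⟩

omit [IsAlgClosed K] [IsAlgClosed k] in
theorem sat_redSub_le (Q : T.O) (hQ : T.red Q = 1) (a b : ℕ) :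
    T.redSub ((riemannRochSpace (𝒩.X a b)).map (LinearMap.mulLeft K (Q : F))) ≤ 𝒩.Msub 1 a b := by
  rintro w ⟨u, hu, rfl⟩
  obtain ⟨y, hy, hyu⟩ := hu
  obtain ⟨z, hz, -, hred⟩ := sat_div Q hQ u (y := y) hyu.symm
  rw [hred]
  exact red_mem_M 𝒩 (by rw [hz]; exact hy)

theorem sat_finrank_Msub_zero (hx : IsSepParam K x) (hb : IsSepParam k t) :
    Module.finrank k (𝒩.Msub 1 0 0) = 1 := by
  obtain ⟨s₀⟩ := 𝒩.nonempty_S hx hb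
  have h1 := ND.LL_X_eq_Msub (𝒩 := 𝒩) 0 0
  have e1 : 𝒩.X₁ 0 0 = 0 := by simp [NodalData.X₁]
  have e2 : 𝒩.X₂ 0 0 = 0 := by simp [NodalData.X₂]
  rw [e1, e2] at h1
  rw [← h1]
  exact ND.finrank_LL_zero hb s₀

theorem exists_add_of_eq (hx : IsSepParam K x) (hb : IsSepParam k t) (a b : ℕ) (P Q : T.O)
    (hP : T.red P = 1) (hQ : T.red Q = 1) (hPL : (P : F) ∈ riemannRochSpace (𝒩.X a 0))
    (hQL : (Q : F) ∈ riemannRochSpace (𝒩.X 0 b)) {y₁ y₂ : F}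
    (h₁ : y₁ ∈ riemannRochSpace (𝒩.X a 0)) (h₂ : y₂ ∈ riemannRochSpace (𝒩.X 0 b)) (Z : T.O)
    (hZ : (Z : F) = (Q : F) * y₁ + (P : F) * y₂) :
    ∃ z₁ z₂ : T.O, (z₁ : F) ∈ riemannRochSpace (𝒩.X a 0) ∧ (z₂ : F) ∈ riemannRochSpace (𝒩.X 0 b) ∧
      Z = Q * z₁ + P * z₂ := by
  have hP0 := ne_zero_of_red_eq_one hP
  have hQ0 := ne_zero_of_red_eq_one hQ
  set V₁ : Submodule K F := riemannRochSpace (𝒩.X a 0) with hV₁
  set V₂ : Submodule K F := riemannRochSpace (𝒩.X 0 b) with hV₂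
  have fV₁ : Module.Finite K V₁ := hx.finite_L _
  have fV₂ : Module.Finite K V₂ := hx.finite_L _
  set U₁ : Submodule K F := V₁.map (LinearMap.mulLeft K (Q : F)) with hU₁
  set U₂ : Submodule K F := V₂.map (LinearMap.mulLeft K (P : F)) with hU₂
  have injQ : Function.Injective (LinearMap.mulLeft K (Q : F)) := fun u v h =>
    mul_left_cancel₀ hQ0 h
  have injP : Function.Injective (LinearMap.mulLeft K (P : F)) := fun u v h =>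
    mul_left_cancel₀ hP0 h
  have e₁ : Module.finrank K U₁ = Module.finrank K V₁ :=
    (Submodule.equivMapOfInjective _ injQ V₁).finrank_eq.symm
  have e₂ : Module.finrank K U₂ = Module.finrank K V₂ :=
    (Submodule.equivMapOfInjective _ injP V₂).finrank_eq.symm
  have fU₁ : Module.Finite K U₁ := Module.Finite.equiv (Submodule.equivMapOfInjective _ injQ V₁)
  have fU₂ : Module.Finite K U₂ := Module.Finite.equiv (Submodule.equivMapOfInjective _ injP V₂)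
  have fU : Module.Finite K ↥(U₁ ⊔ U₂) := inferInstance
  -- (1)
  have hPQ : (Q : F) * (P : F) ∈ U₁ ⊓ U₂ :=
    ⟨⟨P, hPL, rfl⟩, ⟨Q, hQL, mul_comm _ _⟩⟩
  have hinf : 1 ≤ Module.finrank K ↥(U₁ ⊓ U₂) := by
    rw [Submodule.one_le_finrank_iff]
    intro hbot
    rw [hbot, Submodule.mem_bot] at hPQ
    exact mul_ne_zero hQ0 hP0 hPQ
  have hdim := Submodule.finrank_sup_add_finrank_inf_eq U₁ U₂
  -- (2)
  have hR₁ : T.redSub U₁ ≤ 𝒩.Msub 1 a 0 := sat_redSub_le 𝒩 Q hQ a 0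
  have hR₂ : T.redSub U₂ ≤ 𝒩.Msub 1 0 b := sat_redSub_le 𝒩 P hP 0 b
  have hM0 := sat_finrank_Msub_zero 𝒩 hx hb
  have fM0 : Module.Finite k (𝒩.Msub 1 0 0) := Module.finite_of_finrank_pos (by omega)
  have hRinf : T.redSub U₁ ⊓ T.redSub U₂ ≤ 𝒩.Msub 1 0 0 := by
    intro w hw
    have h3 : w ∈ 𝒩.M 1 a 0 ∩ 𝒩.M 1 0 b := ⟨hR₁ hw.1, hR₂ hw.2⟩
    rw [𝒩.M_inter, Nat.min_zero, Nat.zero_min] at h3
    exact h3
  have hRinf' : Module.finrank k ↥(T.redSub U₁ ⊓ T.redSub U₂) ≤ 1 := by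
    rw [← hM0]
    exact Submodule.finrank_mono hRinf
  -- (3)
  have fR₁ : Module.Finite k (T.redSub U₁) := T.finite_redSub U₁
  have fR₂ : Module.Finite k (T.redSub U₂) := T.finite_redSub U₂
  have fR : Module.Finite k (T.redSub (U₁ ⊔ U₂)) := T.finite_redSub _
  have o₁ := 𝒩.on2 U₁ fU₁
  have o₂ := 𝒩.on2 U₂ fU₂
  have hdimR := Submodule.finrank_sup_add_finrank_inf_eq (T.redSub U₁) (T.redSub U₂)
  have hle : T.redSub U₁ ⊔ T.redSub U₂ ≤ T.redSub (U₁ ⊔ U₂) :=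
    sup_le (sat_redSub_mono le_sup_left) (sat_redSub_mono le_sup_right)
  have hU := T.finrank_redSub_le (U₁ ⊔ U₂)
  have heq : T.redSub U₁ ⊔ T.redSub U₂ = T.redSub (U₁ ⊔ U₂) :=
    Submodule.eq_of_le_of_finrank_le hle (by omega)
  -- (4)
  have hZU : (Z : F) ∈ U₁ ⊔ U₂ := by
    rw [hZ]
    exact Submodule.add_mem_sup ⟨y₁, h₁, rfl⟩ ⟨y₂, h₂, rfl⟩
  obtain ⟨u₁, u₂, hu₁, hu₂, hZu⟩ := T.exists_add_of_redSub_sup (U₁ ⊔ U₂) U₁ U₂ le_sup_left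
    le_sup_right (𝒩.on2 _ fU) heq.ge Z hZU
  obtain ⟨y₁', hy₁', hyu₁⟩ := hu₁
  obtain ⟨y₂', hy₂', hyu₂⟩ := hu₂
  obtain ⟨z₁, hz₁, hz₁', -⟩ := sat_div Q hQ u₁ (y := y₁') hyu₁.symm
  obtain ⟨z₂, hz₂, hz₂', -⟩ := sat_div P hP u₂ (y := y₂') hyu₂.symm
  exact ⟨z₁, z₂, by rw [hz₁]; exact hy₁', by rw [hz₂]; exact hy₂', by rw [hZu, hz₁', hz₂']⟩

/-- the untwisted case `P = Q = 1` -/
theorem exists_add_of_eq_one (hx : IsSepParam K x) (hb : IsSepParam k t) (a b : ℕ) {y₁ y₂ : F}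
    (h₁ : y₁ ∈ riemannRochSpace (𝒩.X a 0)) (h₂ : y₂ ∈ riemannRochSpace (𝒩.X 0 b)) (Z : T.O)
    (hZ : (Z : F) = y₁ + y₂) :
    ∃ z₁ z₂ : T.O, (z₁ : F) ∈ riemannRochSpace (𝒩.X a 0) ∧ (z₂ : F) ∈ riemannRochSpace (𝒩.X 0 b) ∧
      Z = z₁ + z₂ := by
  have hX : ∀ a b : ℕ, (0 : Divisor K F) ≤ 𝒩.X a b := fun a b =>
    add_nonneg (nsmul_nonneg 𝒩.P_nonneg a) (nsmul_nonneg 𝒩.P'_nonneg b)
  obtain ⟨z₁, z₂, hz₁, hz₂, h⟩ := exists_add_of_eq 𝒩 hx hb a b 1 1 (map_one _) (map_one _)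
    (L_mono (hX a 0) one_mem_L_zero) (L_mono (hX 0 b) one_mem_L_zero) h₁ h₂ Z
    (by rw [hZ]; simp)
  exact ⟨z₁, z₂, hz₁, hz₂, by rw [h, one_mul, one_mul]⟩

theorem triv_of_eq (hx : IsSepParam K x) (hb : IsSepParam k t) (a b : ℕ) (P Q : T.O)
    (hP : T.red P = 1) (hQ : T.red Q = 1) (hPL : (P : F) ∈ riemannRochSpace (𝒩.X a 0))
    (hQL : (Q : F) ∈ riemannRochSpace (𝒩.X 0 b)) {y₁ y₂ : F}
    (h₁ : y₁ ∈ riemannRochSpace (𝒩.X a 0)) (h₂ : y₂ ∈ riemannRochSpace (𝒩.X 0 b)) (Z : T.O)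
    (hZ : (Z : F) = (Q : F) * y₁ + (P : F) * y₂) : Triv 𝒩 (T.red Z) := by
  obtain ⟨z₁, z₂, hz₁, hz₂, rfl⟩ := exists_add_of_eq 𝒩 hx hb a b P Q hP hQ hPL hQL h₁ h₂ Z hZ
  rw [map_add, map_mul, map_mul, hP, hQ, one_mul, one_mul]
  exact (triv_of_mem_left (red_mem_M 𝒩 hz₁)).add (triv_of_mem_right (red_mem_M 𝒩 hz₂))

end Fermat.Agent.NP
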